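import Fermat.Agent.S55.ColH543.IndK
import Fermat.Agent.S55.K.Spec
import Fermat.Agent.S55.PT.LevelsNormal
import Fermat.Agent.S55.PT.FiniteIndexH424

/-!
# S55 / colimit dictionary (helper543), part 6: the inputs GO1, GO2 and the reduction
# `H3IndMuSpec` of layer K in FINITE-LEVEL form

`gN S` = the normal levels `G_F` (`F/ℚ` finite Galois, unramified outside `S`) of `G_ℚ`.
For a level `V = G_K`:  `(gN S).restrict V` = the levels `G_F ∩ V` of `V`, and
`KL.HL (Rep.res V.subtype A) (U.subgroupOf V) n = Hⁿ(V ⧸ (U ∩ V), A^{U ∩ V})` is Mathlib group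
cohomology of the finite group `Gal(F/K)` (for `F ⊇ K`) with coefficients in `A^{G_F}`.

* `h2DivE_iff`  : `K.H2DivESpec p S`  ↔ `colim_F H²(Gal(F/K), 𝔼^{G_F}) ⊗ ℤ/p = 0` for all `K`;
* `h3TorsE_iff` : `K.H3TorsESpec p S` ↔ `colim_F H³(Gal(F/K), 𝔼^{G_F})[p] = 0` for all `K`;
* `h3IndMu_iff` : `K.H3IndMuSpec p S` ↔ `colim_F H³(Gal(F/K), μ_p^{G_F}) = 0` for all `K`.
-/

set_option autoImplicit false
set_option linter.style.haveILetI false

noncomputable section

open groupCohomology CategoryTheory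

namespace Fermat.Agent.S55.ColH543

open Fermat.Agent.S55.PT Fermat.Agent.S55.KL Fermat.Agent.S55.Bridge

lemma globalLevels_normalCofinal (S : Finset Nat.Primes) : (globalLevels S).NormalCofinal :=
  globalLevels_normal_cofinal724 S

lemma globalLevels_finiteIndex (S : Finset Nat.Primes) : (globalLevels S).FiniteIndex :=
  Fermat.Agent.S55.PT.H424.globalFiniteIndex S

lemma localLevels_normalCofinal (q : Nat.Primes) : (localLevels q).NormalCofinal :=
  pullbackLevels_normal_cofinal724 (rl q)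

lemma localLevels_finiteIndex (q : Nat.Primes) : (localLevels q).FiniteIndex :=
  Fermat.Agent.S55.PT.H424.pullbackLevels_finiteIndex (rl q)

/-- The normal levels of `G_ℚ` (for `S`). -/
def gN (S : Finset Nat.Primes) : NLevels GQ :=
  nLevels (globalLevels S) (globalLevels_normalCofinal S) (globalLevels_finiteIndex S)

/-- The normal levels of the local group at `q`. -/
def lN (q : Nat.Primes) : NLevels (Gl q) :=
  nLevels (localLevels q) (localLevels_normalCofinal q) (localLevels_finiteIndex q)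

variable (p : ℕ) [Fact p.Prime] (S : Finset Nat.Primes)

/-- **GO1 in finite-level form.** -/
theorem h2DivE_iff :
    K.H2DivESpec p S ↔
      (p ≠ 2 → ExtCitation.pPrime p ∈ S → ∀ V ∈ (globalLevels S).levels,
        EffDiv ((gN S).restrict V) (Rep.res V.subtype (K.sUnits S)) p 2) := by
  constructor
  · intro H hp hpS V hV
    obtain ⟨V₀, hV₀, hV₀V, hV₀n⟩ := globalLevels_normalCofinal S V hV
    exact (h2Divisible_indG_iff (globalLevels_normalCofinal S) (globalLevels_finiteIndex S)
      (K.sUnits S) V hV₀ hV₀n hV₀V p).1 (H hp hpS V hV)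
  · intro H hp hpS V hV
    obtain ⟨V₀, hV₀, hV₀V, hV₀n⟩ := globalLevels_normalCofinal S V hV
    exact (h2Divisible_indG_iff (globalLevels_normalCofinal S) (globalLevels_finiteIndex S)
      (K.sUnits S) V hV₀ hV₀n hV₀V p).2 (H hp hpS V hV)

/-- **GO2 in finite-level form.** -/
theorem h3TorsE_iff :
    K.H3TorsESpec p S ↔
      (p ≠ 2 → ExtCitation.pPrime p ∈ S → ∀ V ∈ (globalLevels S).levels,
        EffTors ((gN S).restrict V) (Rep.res V.subtype (K.sUnits S)) p 3) := by
  constructor
  · intro H hp hpS V hV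
    obtain ⟨V₀, hV₀, hV₀V, hV₀n⟩ := globalLevels_normalCofinal S V hV
    exact (h3TorsVanish_indG_iff (globalLevels_normalCofinal S) (globalLevels_finiteIndex S)
      (K.sUnits S) V hV₀ hV₀n hV₀V p).1 (H hp hpS V hV)
  · intro H hp hpS V hV
    obtain ⟨V₀, hV₀, hV₀V, hV₀n⟩ := globalLevels_normalCofinal S V hV
    exact (h3TorsVanish_indG_iff (globalLevels_normalCofinal S) (globalLevels_finiteIndex S)
      (K.sUnits S) V hV₀ hV₀n hV₀V p).2 (H hp hpS V hV)

/-- **`H³_S(Ind_V μ_p) = 0` in finite-level form.** -/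
theorem h3IndMu_iff :
    K.H3IndMuSpec p S ↔
      (p ≠ 2 → ExtCitation.pPrime p ∈ S → ∀ V ∈ (globalLevels S).levels,
        EffAll ((gN S).restrict V) (Rep.res V.subtype (muP p)) 3) := by
  constructor
  · intro H hp hpS V hV
    obtain ⟨V₀, hV₀, hV₀V, hV₀n⟩ := globalLevels_normalCofinal S V hV
    exact (h3Vanish_indG_iff (globalLevels_normalCofinal S) (globalLevels_finiteIndex S)
      (muP p) V hV₀ hV₀n hV₀V).1 (H hp hpS V hV)
  · intro H hp hpS V hV
    obtain ⟨V₀, hV₀, hV₀V, hV₀n⟩ := globalLevels_normalCofinal S V hV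
    exact (h3Vanish_indG_iff (globalLevels_normalCofinal S) (globalLevels_finiteIndex S)
      (muP p) V hV₀ hV₀n hV₀V).2 (H hp hpS V hV)

/-- **`H³_S(R) = 0` for finite `R` in finite-level form** (`cd_p(G_S) ≤ 2`). -/
theorem h3Fin_iff :
    K.H3FinSpec p S ↔
      (p ≠ 2 → ExtCitation.pPrime p ∈ S → ∀ R : Rep.{0, 0, 0} (ZMod p) GQ,
        FiniteDimensional (ZMod p) R → (globalLevels S).IsUSmooth R → EffAll (gN S) R 3) := by
  constructor
  · intro H hp hpS R hR hs
    exact (h3Vanish_iff (globalLevels_normalCofinal S) (globalLevels_finiteIndex S) R).1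
      (H hp hpS R hR hs)
  · intro H hp hpS R hR hs
    exact (h3Vanish_iff (globalLevels_normalCofinal S) (globalLevels_finiteIndex S) R).2
      (H hp hpS R hR hs)

end Fermat.Agent.S55.ColH543

end
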