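import Mathlib

/-!
# S55 / colimit dictionary (helper543), part 1: inflation of cochains

`G` any group, `U ⊴ G` a normal subgroup, `A : Rep k G`.  We compare inhomogeneous cochains of
`G` with values in `A` with inhomogeneous cochains of `G ⧸ U` with values in
`A^U = A.quotientToInvariants U`, in degrees `0, 1, 2, 3` (and `4` for the cocycle condition in
degree `3`), in the explicit "function on `G × ⋯ × G`" form used by Mathlib's low-degree API
(`d₀₁`, `d₁₂`, `d₂₃`) and by the cochain-level layers `PT`, `K` of S55.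

* `IsRInv₁ … IsRInv₄ U f` : `f` is invariant under right translation by `U` in every variable;
* `d34 A` : the differential `C³ → C⁴` (same formula as `K.d34`), `d34Lin` its linear version;
* `inf₁ … inf₄ A U` : inflation of cochains `Cⁱ(G ⧸ U, A^U) → Cⁱ(G, A)`, injective, commuting
  with the differentials, with right `U`-invariant image;
* `exists_inf₁ … exists_inf₃` : a right `U`-invariant cochain with values in `A^U` is inflated;
* **key remark** `mem_invariants_of_isRInv₀ … ₃` : if `b` and `d b` are right `U`-invariant then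
  all values of `b` are `U`-invariant (no smoothness hypothesis is needed for cocycles).

Mathlib only.
-/

set_option autoImplicit false

noncomputable section

open groupCohomology

namespace Fermat.Agent.S55.ColH543

variable {k : Type} [CommRing k] {G : Type} [Group G]

/-! ## Right invariance -/

section RInv

variable {X : Type*}

/-- `f` is invariant under right translation by `U`. -/
def IsRInv₁ (U : Subgroup G) (f : G → X) : Prop := ∀ g s : G, s ∈ U → f (g * s) = f g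

/-- `f` is invariant under right translation by `U` in both variables. -/
def IsRInv₂ (U : Subgroup G) (f : G × G → X) : Prop :=
  ∀ g g' s s' : G, s ∈ U → s' ∈ U → f (g * s, g' * s') = f (g, g')

/-- `f` is invariant under right translation by `U` in all three variables. -/
def IsRInv₃ (U : Subgroup G) (f : G × G × G → X) : Prop :=
  ∀ g₁ g₂ g₃ s₁ s₂ s₃ : G, s₁ ∈ U → s₂ ∈ U → s₃ ∈ U →
    f (g₁ * s₁, g₂ * s₂, g₃ * s₃) = f (g₁, g₂, g₃)

/-- `f` is invariant under right translation by `U` in all four variables. -/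
def IsRInv₄ (U : Subgroup G) (f : G × G × G × G → X) : Prop :=
  ∀ g₁ g₂ g₃ g₄ s₁ s₂ s₃ s₄ : G, s₁ ∈ U → s₂ ∈ U → s₃ ∈ U → s₄ ∈ U →
    f (g₁ * s₁, g₂ * s₂, g₃ * s₃, g₄ * s₄) = f (g₁, g₂, g₃, g₄)

lemma IsRInv₁.mono {U U' : Subgroup G} (h : U' ≤ U) {f : G → X} (hf : IsRInv₁ U f) :
    IsRInv₁ U' f := fun g s hs => hf g s (h hs)

lemma IsRInv₂.mono {U U' : Subgroup G} (h : U' ≤ U) {f : G × G → X} (hf : IsRInv₂ U f) :
    IsRInv₂ U' f := fun g g' s s' hs hs' => hf g g' s s' (h hs) (h hs')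

lemma IsRInv₃.mono {U U' : Subgroup G} (h : U' ≤ U) {f : G × G × G → X} (hf : IsRInv₃ U f) :
    IsRInv₃ U' f := fun g₁ g₂ g₃ s₁ s₂ s₃ h₁ h₂ h₃ => hf g₁ g₂ g₃ s₁ s₂ s₃ (h h₁) (h h₂) (h h₃)

lemma IsRInv₄.mono {U U' : Subgroup G} (h : U' ≤ U) {f : G × G × G × G → X}
    (hf : IsRInv₄ U f) : IsRInv₄ U' f :=
  fun g₁ g₂ g₃ g₄ s₁ s₂ s₃ s₄ h₁ h₂ h₃ h₄ => hf g₁ g₂ g₃ g₄ s₁ s₂ s₃ s₄ (h h₁) (h h₂) (h h₃) (h h₄)

lemma isRInv₄_zero (U : Subgroup G) {X : Type*} [Zero X] : IsRInv₄ U (0 : G × G × G × G → X) :=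
  fun _ _ _ _ _ _ _ _ _ _ _ _ => rfl

lemma isRInv₃_zero (U : Subgroup G) {X : Type*} [Zero X] : IsRInv₃ U (0 : G × G × G → X) :=
  fun _ _ _ _ _ _ _ _ _ => rfl

lemma isRInv₂_zero (U : Subgroup G) {X : Type*} [Zero X] : IsRInv₂ U (0 : G × G → X) :=
  fun _ _ _ _ _ _ => rfl

lemma isRInv₁_zero (U : Subgroup G) {X : Type*} [Zero X] : IsRInv₁ U (0 : G → X) :=
  fun _ _ _ => rfl

/-- A right `U`-invariant function only depends on the classes mod `U`. -/
lemma IsRInv₁.eq_of_mk_eq {U : Subgroup G} {f : G → X} (hf : IsRInv₁ U f) {g g' : G}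
    (h : (g : G ⧸ U) = (g' : G ⧸ U)) : f g = f g' := by
  have h1 : g⁻¹ * g' ∈ U := QuotientGroup.eq.1 h
  have h2 := hf g (g⁻¹ * g') h1
  rw [mul_inv_cancel_left] at h2
  exact h2.symm

lemma IsRInv₂.eq_of_mk_eq {U : Subgroup G} {f : G × G → X} (hf : IsRInv₂ U f) {g₁ g₁' g₂ g₂' : G}
    (h₁ : (g₁ : G ⧸ U) = (g₁' : G ⧸ U)) (h₂ : (g₂ : G ⧸ U) = (g₂' : G ⧸ U)) :
    f (g₁, g₂) = f (g₁', g₂') := by
  have h := hf g₁ g₂ (g₁⁻¹ * g₁') (g₂⁻¹ * g₂') (QuotientGroup.eq.1 h₁) (QuotientGroup.eq.1 h₂)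
  rw [mul_inv_cancel_left, mul_inv_cancel_left] at h
  exact h.symm

lemma IsRInv₃.eq_of_mk_eq {U : Subgroup G} {f : G × G × G → X} (hf : IsRInv₃ U f)
    {g₁ g₁' g₂ g₂' g₃ g₃' : G}
    (h₁ : (g₁ : G ⧸ U) = (g₁' : G ⧸ U)) (h₂ : (g₂ : G ⧸ U) = (g₂' : G ⧸ U))
    (h₃ : (g₃ : G ⧸ U) = (g₃' : G ⧸ U)) :
    f (g₁, g₂, g₃) = f (g₁', g₂', g₃') := by
  have h := hf g₁ g₂ g₃ (g₁⁻¹ * g₁') (g₂⁻¹ * g₂') (g₃⁻¹ * g₃') (QuotientGroup.eq.1 h₁)
    (QuotientGroup.eq.1 h₂) (QuotientGroup.eq.1 h₃)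
  rw [mul_inv_cancel_left, mul_inv_cancel_left, mul_inv_cancel_left] at h
  exact h.symm

lemma IsRInv₄.eq_of_mk_eq {U : Subgroup G} {f : G × G × G × G → X} (hf : IsRInv₄ U f)
    {g₁ g₁' g₂ g₂' g₃ g₃' g₄ g₄' : G}
    (h₁ : (g₁ : G ⧸ U) = (g₁' : G ⧸ U)) (h₂ : (g₂ : G ⧸ U) = (g₂' : G ⧸ U))
    (h₃ : (g₃ : G ⧸ U) = (g₃' : G ⧸ U)) (h₄ : (g₄ : G ⧸ U) = (g₄' : G ⧸ U)) :
    f (g₁, g₂, g₃, g₄) = f (g₁', g₂', g₃', g₄') := by
  have h := hf g₁ g₂ g₃ g₄ (g₁⁻¹ * g₁') (g₂⁻¹ * g₂') (g₃⁻¹ * g₃') (g₄⁻¹ * g₄')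
    (QuotientGroup.eq.1 h₁) (QuotientGroup.eq.1 h₂) (QuotientGroup.eq.1 h₃)
    (QuotientGroup.eq.1 h₄)
  rw [mul_inv_cancel_left, mul_inv_cancel_left, mul_inv_cancel_left, mul_inv_cancel_left] at h
  exact h.symm

end RInv

/-! ## The differential `C³ → C⁴` -/

/-- The differential `C³ → C⁴` of inhomogeneous cochains (explicit form). -/
def d34 (A : Rep.{0, 0, 0} k G) (f : G × G × G → A) : G × G × G × G → A := fun x =>
  A.ρ x.1 (f (x.2.1, x.2.2.1, x.2.2.2)) - f (x.1 * x.2.1, x.2.2.1, x.2.2.2)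
    + f (x.1, x.2.1 * x.2.2.1, x.2.2.2) - f (x.1, x.2.1, x.2.2.1 * x.2.2.2)
    + f (x.1, x.2.1, x.2.2.1)

lemma d34_apply (A : Rep.{0, 0, 0} k G) (f : G × G × G → A) (g₁ g₂ g₃ g₄ : G) :
    d34 A f (g₁, g₂, g₃, g₄) =
      A.ρ g₁ (f (g₂, g₃, g₄)) - f (g₁ * g₂, g₃, g₄) + f (g₁, g₂ * g₃, g₄) - f (g₁, g₂, g₃ * g₄)
        + f (g₁, g₂, g₃) := rfl

/-- `d34` as a linear map. -/
def d34Lin (A : Rep.{0, 0, 0} k G) : (G × G × G → A) →ₗ[k] (G × G × G × G → A) where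
  toFun := d34 A
  map_add' f f' := by
    funext x
    simp only [d34, Pi.add_apply, map_add]
    abel
  map_smul' c f := by
    funext x
    simp only [d34, Pi.smul_apply, map_smul, RingHom.id_apply, smul_add, smul_sub]

@[simp] lemma d34Lin_apply (A : Rep.{0, 0, 0} k G) (f : G × G × G → A) :
    d34Lin A f = d34 A f := rfl

/-- `d ∘ d = 0` in degrees `2, 3, 4`. -/
lemma d34_d₂₃ (A : Rep.{0, 0, 0} k G) (b : G × G → A) : d34 A ((d₂₃ A).hom b) = 0 := by
  funext x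
  obtain ⟨g₁, g₂, g₃, g₄⟩ := x
  simp only [d34_apply, d₂₃_hom_apply, map_add, map_sub, Pi.zero_apply, mul_assoc]
  rw [← Module.End.mul_apply, ← map_mul]
  abel

/-- The 3-cocycles, in explicit form. -/
def cocycles₃ (A : Rep.{0, 0, 0} k G) : Submodule k (G × G × G → A) := LinearMap.ker (d34Lin A)

lemma mem_cocycles₃_iff (A : Rep.{0, 0, 0} k G) (f : G × G × G → A) :
    f ∈ cocycles₃ A ↔ d34 A f = 0 := Iff.rfl

/-- The 3-coboundaries, in explicit form. -/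
def coboundaries₃ (A : Rep.{0, 0, 0} k G) : Submodule k (G × G × G → A) :=
  LinearMap.range (d₂₃ A).hom

lemma coboundaries₃_le_cocycles₃ (A : Rep.{0, 0, 0} k G) : coboundaries₃ A ≤ cocycles₃ A := by
  rintro _ ⟨b, rfl⟩
  exact d34_d₂₃ A b

/-! ## Invariant elements -/

/-- `a ∈ A` is `U`-invariant. -/
def IsInv (A : Rep.{0, 0, 0} k G) (U : Subgroup G) (a : A.V) : Prop := ∀ s ∈ U, A.ρ s a = a

lemma isInv_iff_mem {A : Rep.{0, 0, 0} k G} {U : Subgroup G} {a : A.V} :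
    IsInv A U a ↔ a ∈ Representation.invariants (A.ρ.comp U.subtype) :=
  ⟨fun h s => h s.1 s.2, fun h s hs => h ⟨s, hs⟩⟩

lemma IsInv.mono {A : Rep.{0, 0, 0} k G} {U U' : Subgroup G} (h : U' ≤ U) {a : A.V}
    (ha : IsInv A U a) : IsInv A U' a := fun s hs => ha s (h hs)

/-! ## Inflation of cochains -/

section Inf

variable (A : Rep.{0, 0, 0} k G) (U : Subgroup G) [U.Normal]

/-- The action of `G ⧸ U` on `A^U`, on representatives. -/
lemma quot_ρ_mk_coe (g : G) (x : A.quotientToInvariants U) :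
    (((A.quotientToInvariants U).ρ (g : G ⧸ U) x : A.quotientToInvariants U) : A.V) =
      A.ρ g (x : A.V) := rfl

/-- The values of a cochain with values in `A^U` are `U`-invariant. -/
lemma coe_ρ_of_mem (x : A.quotientToInvariants U) {s : G} (hs : s ∈ U) :
    A.ρ s (x : A.V) = (x : A.V) := x.2 ⟨s, hs⟩

lemma isInv_coe (x : A.quotientToInvariants U) : IsInv A U (x : A.V) :=
  fun _ hs => coe_ρ_of_mem A U x hs

/-- Inflation in degree `0`: the inclusion `A^U → A`. -/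
def inf₀ : (A.quotientToInvariants U) →ₗ[k] A.V :=
  (Representation.invariants (A.ρ.comp U.subtype)).subtype

/-- Inflation of 1-cochains. -/
def inf₁ : (G ⧸ U → A.quotientToInvariants U) →ₗ[k] (G → A) where
  toFun c g := (c (g : G ⧸ U) : A.V)
  map_add' _ _ := rfl
  map_smul' _ _ := rfl

/-- Inflation of 2-cochains. -/
def inf₂ : ((G ⧸ U) × (G ⧸ U) → A.quotientToInvariants U) →ₗ[k] (G × G → A) where
  toFun c g := (c ((g.1 : G ⧸ U), (g.2 : G ⧸ U)) : A.V)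
  map_add' _ _ := rfl
  map_smul' _ _ := rfl

/-- Inflation of 3-cochains. -/
def inf₃ : ((G ⧸ U) × (G ⧸ U) × (G ⧸ U) → A.quotientToInvariants U) →ₗ[k] (G × G × G → A) where
  toFun c g := (c ((g.1 : G ⧸ U), (g.2.1 : G ⧸ U), (g.2.2 : G ⧸ U)) : A.V)
  map_add' _ _ := rfl
  map_smul' _ _ := rfl

/-- Inflation of 4-cochains. -/
def inf₄ : ((G ⧸ U) × (G ⧸ U) × (G ⧸ U) × (G ⧸ U) → A.quotientToInvariants U) →ₗ[k]
    (G × G × G × G → A) where
  toFun c g := (c ((g.1 : G ⧸ U), (g.2.1 : G ⧸ U), (g.2.2.1 : G ⧸ U), (g.2.2.2 : G ⧸ U)) : A.V)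
  map_add' _ _ := rfl
  map_smul' _ _ := rfl

@[simp] lemma inf₀_apply (a : A.quotientToInvariants U) : inf₀ A U a = (a : A.V) := rfl

@[simp] lemma inf₁_apply (c : G ⧸ U → A.quotientToInvariants U) (g : G) :
    inf₁ A U c g = (c (g : G ⧸ U) : A.V) := rfl

@[simp] lemma inf₂_apply (c : (G ⧸ U) × (G ⧸ U) → A.quotientToInvariants U) (g h : G) :
    inf₂ A U c (g, h) = (c ((g : G ⧸ U), (h : G ⧸ U)) : A.V) := rfl

@[simp] lemma inf₃_apply (c : (G ⧸ U) × (G ⧸ U) × (G ⧸ U) → A.quotientToInvariants U)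
    (g₁ g₂ g₃ : G) :
    inf₃ A U c (g₁, g₂, g₃) = (c ((g₁ : G ⧸ U), (g₂ : G ⧸ U), (g₃ : G ⧸ U)) : A.V) := rfl

@[simp] lemma inf₄_apply (c : (G ⧸ U) × (G ⧸ U) × (G ⧸ U) × (G ⧸ U) → A.quotientToInvariants U)
    (g₁ g₂ g₃ g₄ : G) :
    inf₄ A U c (g₁, g₂, g₃, g₄) =
      (c ((g₁ : G ⧸ U), (g₂ : G ⧸ U), (g₃ : G ⧸ U), (g₄ : G ⧸ U)) : A.V) := rfl

lemma inf₀_injective : Function.Injective (inf₀ A U) := Subtype.val_injective

lemma inf₁_injective : Function.Injective (inf₁ A U) := by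
  intro c c' h
  funext x
  induction x using QuotientGroup.induction_on with
  | H g => exact Subtype.ext (congrFun h g)

lemma inf₂_injective : Function.Injective (inf₂ A U) := by
  intro c c' h
  funext ⟨x, y⟩
  induction x using QuotientGroup.induction_on with
  | H g =>
  induction y using QuotientGroup.induction_on with
  | H g' => exact Subtype.ext (congrFun h (g, g'))

lemma inf₃_injective : Function.Injective (inf₃ A U) := by
  intro c c' h
  funext ⟨x, y, z⟩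
  induction x using QuotientGroup.induction_on with
  | H g₁ =>
  induction y using QuotientGroup.induction_on with
  | H g₂ =>
  induction z using QuotientGroup.induction_on with
  | H g₃ => exact Subtype.ext (congrFun h (g₁, g₂, g₃))

lemma inf₄_injective : Function.Injective (inf₄ A U) := by
  intro c c' h
  funext ⟨x, y, z, w⟩
  induction x using QuotientGroup.induction_on with
  | H g₁ =>
  induction y using QuotientGroup.induction_on with
  | H g₂ =>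
  induction z using QuotientGroup.induction_on with
  | H g₃ =>
  induction w using QuotientGroup.induction_on with
  | H g₄ => exact Subtype.ext (congrFun h (g₁, g₂, g₃, g₄))

/-! ### Inflation commutes with the differentials -/

lemma d₀₁_inf₀ (a : A.quotientToInvariants U) :
    (d₀₁ A).hom (inf₀ A U a) = inf₁ A U ((d₀₁ (A.quotientToInvariants U)).hom a) := by
  funext g
  rfl

lemma d₁₂_inf₁ (c : G ⧸ U → A.quotientToInvariants U) :
    (d₁₂ A).hom (inf₁ A U c) = inf₂ A U ((d₁₂ (A.quotientToInvariants U)).hom c) := by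
  funext ⟨g, h⟩
  rfl

lemma d₂₃_inf₂ (c : (G ⧸ U) × (G ⧸ U) → A.quotientToInvariants U) :
    (d₂₃ A).hom (inf₂ A U c) = inf₃ A U ((d₂₃ (A.quotientToInvariants U)).hom c) := by
  funext ⟨g₁, g₂, g₃⟩
  rfl

lemma d34_inf₃ (c : (G ⧸ U) × (G ⧸ U) × (G ⧸ U) → A.quotientToInvariants U) :
    d34 A (inf₃ A U c) = inf₄ A U (d34 (A.quotientToInvariants U) c) := by
  funext ⟨g₁, g₂, g₃, g₄⟩
  rfl

/-! ### The image of inflation -/

lemma mk_mul_of_mem (g : G) {s : G} (hs : s ∈ U) : ((g * s : G) : G ⧸ U) = (g : G ⧸ U) := by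
  rw [QuotientGroup.mk_mul, (QuotientGroup.eq_one_iff s).2 hs, mul_one]

lemma isRInv₁_inf₁ (c : G ⧸ U → A.quotientToInvariants U) : IsRInv₁ U (inf₁ A U c) := by
  intro g s hs
  simp only [inf₁_apply, mk_mul_of_mem U g hs]

lemma isRInv₂_inf₂ (c : (G ⧸ U) × (G ⧸ U) → A.quotientToInvariants U) :
    IsRInv₂ U (inf₂ A U c) := by
  intro g g' s s' hs hs'
  simp only [inf₂_apply, mk_mul_of_mem U g hs, mk_mul_of_mem U g' hs']

lemma isRInv₃_inf₃ (c : (G ⧸ U) × (G ⧸ U) × (G ⧸ U) → A.quotientToInvariants U) :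
    IsRInv₃ U (inf₃ A U c) := by
  intro g₁ g₂ g₃ s₁ s₂ s₃ h₁ h₂ h₃
  simp only [inf₃_apply, mk_mul_of_mem U g₁ h₁, mk_mul_of_mem U g₂ h₂, mk_mul_of_mem U g₃ h₃]

lemma isRInv₄_inf₄ (c : (G ⧸ U) × (G ⧸ U) × (G ⧸ U) × (G ⧸ U) → A.quotientToInvariants U) :
    IsRInv₄ U (inf₄ A U c) := by
  intro g₁ g₂ g₃ g₄ s₁ s₂ s₃ s₄ h₁ h₂ h₃ h₄
  simp only [inf₄_apply, mk_mul_of_mem U g₁ h₁, mk_mul_of_mem U g₂ h₂, mk_mul_of_mem U g₃ h₃,
    mk_mul_of_mem U g₄ h₄]

lemma isInv_inf₁ (c : G ⧸ U → A.quotientToInvariants U) (g : G) : IsInv A U (inf₁ A U c g) :=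
  isInv_coe A U _

lemma isInv_inf₂ (c : (G ⧸ U) × (G ⧸ U) → A.quotientToInvariants U) (x : G × G) :
    IsInv A U (inf₂ A U c x) :=
  isInv_coe A U _

lemma isInv_inf₃ (c : (G ⧸ U) × (G ⧸ U) × (G ⧸ U) → A.quotientToInvariants U) (x : G × G × G) :
    IsInv A U (inf₃ A U c x) :=
  isInv_coe A U _

variable {A U}

/-- A `U`-invariant element is inflated. -/
lemma exists_inf₀ {a : A.V} (ha : IsInv A U a) : ∃ a' : A.quotientToInvariants U,
    inf₀ A U a' = a :=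
  ⟨⟨a, isInv_iff_mem.1 ha⟩, rfl⟩

/-- A right `U`-invariant 1-cochain with `U`-invariant values is inflated. -/
lemma exists_inf₁ {f : G → A} (hf : IsRInv₁ U f) (hv : ∀ g, IsInv A U (f g)) :
    ∃ c : G ⧸ U → A.quotientToInvariants U, inf₁ A U c = f := by
  refine ⟨fun x => ⟨f x.out, isInv_iff_mem.1 (hv _)⟩, ?_⟩
  funext g
  exact hf.eq_of_mk_eq (QuotientGroup.out_eq' (g : G ⧸ U))

/-- A right `U`-invariant 2-cochain with `U`-invariant values is inflated. -/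
lemma exists_inf₂ {f : G × G → A} (hf : IsRInv₂ U f) (hv : ∀ x, IsInv A U (f x)) :
    ∃ c : (G ⧸ U) × (G ⧸ U) → A.quotientToInvariants U, inf₂ A U c = f := by
  refine ⟨fun x => ⟨f (x.1.out, x.2.out), isInv_iff_mem.1 (hv _)⟩, ?_⟩
  funext ⟨g, h⟩
  exact hf.eq_of_mk_eq (QuotientGroup.out_eq' (g : G ⧸ U)) (QuotientGroup.out_eq' (h : G ⧸ U))

/-- A right `U`-invariant 3-cochain with `U`-invariant values is inflated. -/
lemma exists_inf₃ {f : G × G × G → A} (hf : IsRInv₃ U f) (hv : ∀ x, IsInv A U (f x)) :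
    ∃ c : (G ⧸ U) × (G ⧸ U) × (G ⧸ U) → A.quotientToInvariants U, inf₃ A U c = f := by
  refine ⟨fun x => ⟨f (x.1.out, x.2.1.out, x.2.2.out), isInv_iff_mem.1 (hv _)⟩, ?_⟩
  funext ⟨g₁, g₂, g₃⟩
  exact hf.eq_of_mk_eq (QuotientGroup.out_eq' (g₁ : G ⧸ U)) (QuotientGroup.out_eq' (g₂ : G ⧸ U))
    (QuotientGroup.out_eq' (g₃ : G ⧸ U))

end Inf

/-! ## The key remark: values of cochains with invariant coboundary are invariant -/

section Key

variable {A : Rep.{0, 0, 0} k G} {U : Subgroup G} [U.Normal]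

omit [U.Normal] in
/-- **Key remark, degree 0.** -/
lemma isInv_of_isRInv₀ {a : A.V} (hd : IsRInv₁ U ((d₀₁ A).hom a)) : IsInv A U a := by
  intro s hs
  have h1 := hd 1 s hs
  simp only [d₀₁_hom_apply, one_mul, map_one, Module.End.one_apply, sub_self] at h1
  exact sub_eq_zero.1 h1

lemma conj_mul_eq (h s : G) : h * (h⁻¹ * s * h) = s * h := by group

/-- **Key remark, degree 1.** -/
lemma isInv_of_isRInv₁ {b : G → A} (hb : IsRInv₁ U b) (hd : IsRInv₂ U ((d₁₂ A).hom b)) (h : G) :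
    IsInv A U (b h) := by
  intro s hs
  have h1 := hd 1 h s 1 hs U.one_mem
  simp only [d₁₂_hom_apply, one_mul, mul_one, map_one, Module.End.one_apply] at h1
  have h2 : b (s * h) = b h := by
    have := hb h (h⁻¹ * s * h) (Subgroup.Normal.conj_mem' ‹U.Normal› s hs h)
    rwa [conj_mul_eq] at this
  have h3 : b s = b 1 := by simpa using hb 1 s hs
  rw [h2, h3] at h1
  have h4 : A.ρ s (b h) - b h = 0 := by
    have := congrArg (fun x => x - b 1) h1
    simpa using this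
  exact sub_eq_zero.1 h4

/-- **Key remark, degree 2.** -/
lemma isInv_of_isRInv₂ {b : G × G → A} (hb : IsRInv₂ U b) (hd : IsRInv₃ U ((d₂₃ A).hom b))
    (x : G × G) : IsInv A U (b x) := by
  obtain ⟨g, h⟩ := x
  intro s hs
  have h1 := hd 1 g h s 1 1 hs U.one_mem U.one_mem
  simp only [d₂₃_hom_apply, one_mul, mul_one, map_one, Module.End.one_apply] at h1
  have h2 : b (s * g, h) = b (g, h) := by
    have := hb g h (g⁻¹ * s * g) 1 (Subgroup.Normal.conj_mem' ‹U.Normal› s hs g) U.one_mem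
    rwa [conj_mul_eq, mul_one] at this
  have h3 : ∀ y, b (s, y) = b (1, y) := fun y => by simpa using hb 1 y s 1 hs U.one_mem
  rw [h2, h3, h3] at h1
  have h4 : A.ρ s (b (g, h)) - b (g, h) = 0 := by
    have := congrArg (fun x => x + b (1, g) - b (1, g * h)) h1
    simpa using this
  exact sub_eq_zero.1 h4

/-- **Key remark, degree 3.** -/
lemma isInv_of_isRInv₃ {b : G × G × G → A} (hb : IsRInv₃ U b) (hd : IsRInv₄ U (d34 A b))
    (x : G × G × G) : IsInv A U (b x) := by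
  obtain ⟨g₁, g₂, g₃⟩ := x
  intro s hs
  have h1 := hd 1 g₁ g₂ g₃ s 1 1 1 hs U.one_mem U.one_mem U.one_mem
  simp only [d34_apply, one_mul, mul_one, map_one, Module.End.one_apply] at h1
  have h2 : b (s * g₁, g₂, g₃) = b (g₁, g₂, g₃) := by
    have := hb g₁ g₂ g₃ (g₁⁻¹ * s * g₁) 1 1 (Subgroup.Normal.conj_mem' ‹U.Normal› s hs g₁)
      U.one_mem U.one_mem
    rwa [conj_mul_eq, mul_one, mul_one] at this
  have h3 : ∀ y z, b (s, y, z) = b (1, y, z) := fun y z => by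
    simpa using hb 1 y z s 1 1 hs U.one_mem U.one_mem
  rw [h2, h3, h3, h3] at h1
  have h4 : A.ρ s (b (g₁, g₂, g₃)) - b (g₁, g₂, g₃) = 0 := by
    have := congrArg (fun x => x - b (1, g₁, g₂) + b (1, g₁, g₂ * g₃) - b (1, g₁ * g₂, g₃)) h1
    simpa using this
  exact sub_eq_zero.1 h4

end Key

end Fermat.Agent.S55.ColH543

end
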