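import Fermat.Agent.S55.ColH543.Deg3
import Fermat.Agent.S55.KL.DevSylowH543
import Fermat.Agent.S55.PT.Levels

/-!
# S55 / colimit dictionary (helper543), part 3: level-constant cochains versus finite levels

`G` a group with a level system `L : PT.LevelSys G` whose normal levels are cofinal
(`hN : L.NormalCofinal`), `A : Rep k G` ARBITRARY (no smoothness assumption: by the key remark of
`Cochain.lean` the values of a level-constant cochain with level-constant coboundary are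
automatically invariant under a normal level).

Finite levels are in Mathlib form: `KL.HL A U n = groupCohomology (A.quotientToInvariants U) n`
with the transition maps `KL.infl A h n` (`h : U' ≤ U`).

## Elementwise dictionary
* `exists_inf₁_of_mem_Z1`, `exists_inf₂_of_mem_Z2`, `exists_inf₃_of_isLC₃` : a level-constant
  cocycle is inflated from a cocycle of a normal level (below any given level);
* `inf₁_mem_B1_iff`, `inf₂_mem_B2_iff`, `inf₃_mem_B3_iff` : an inflated cocycle is the coboundary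
  of a level-constant cochain iff its class dies at some smaller normal level;
* `inf₂_comp`, … : compatibility of inflation with `KL.HLmap` (restriction to subgroups /
  local groups, change of coefficients, transition maps).

## Cochain-level predicates of layer K  ↔  finite-level predicates of layer KL
* `h3Vanish_iff`     : `H3Vanish L A ↔ KL.EffAll N A 3`,
* `h3TorsVanish_iff` : `H3TorsVanish L A n ↔ KL.EffTors N A n 3`,
* `h2Divisible_iff`  : `H2Divisible L A n ↔ KL.EffDiv N A n 2`,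
where `N = nLevels L hN hF` is the system of normal levels of `L`.
-/

set_option autoImplicit false
set_option linter.style.haveILetI false

noncomputable section

open groupCohomology CategoryTheory

namespace Fermat.Agent.S55.ColH543

open Fermat.Agent.S55.PT Fermat.Agent.S55.KL

variable {k : Type} [CommRing k] {G : Type} [Group G]

/-! ## Normal levels -/

/-- The system of normal levels of `L`, as a `KL.NLevels`. -/
def nLevels (L : LevelSys G) (hN : L.NormalCofinal) (hF : L.FiniteIndex) : NLevels G where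
  carrier := {U | U ∈ L.levels ∧ U.Normal}
  normal _ hU := hU.2
  finiteIndex _ hU := hF _ hU.1
  nonempty := by
    obtain ⟨U, hU⟩ := L.nonempty
    obtain ⟨V, hV, -, hVn⟩ := hN U hU
    exact ⟨V, hV, hVn⟩
  directed := by
    rintro U ⟨hU, -⟩ V ⟨hV, -⟩
    obtain ⟨W, hW, hle⟩ := L.directed U hU V hV
    obtain ⟨X, hX, hXW, hXn⟩ := hN W hW
    exact ⟨X, ⟨hX, hXn⟩, hXW.trans hle⟩

lemma mem_nLevels {L : LevelSys G} {hN : L.NormalCofinal} {hF : L.FiniteIndex} {U : Subgroup G} :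
    U ∈ (nLevels L hN hF).carrier ↔ U ∈ L.levels ∧ U.Normal := Iff.rfl

/-- Below two levels of `L` there is a normal level. -/
lemma exists_normal_le {L : LevelSys G} (hN : L.NormalCofinal) {U V : Subgroup G}
    (hU : U ∈ L.levels) (hV : V ∈ L.levels) :
    ∃ W ∈ L.levels, W.Normal ∧ W ≤ U ∧ W ≤ V := by
  obtain ⟨W, hW, hle⟩ := L.directed U hU V hV
  obtain ⟨X, hX, hXW, hXn⟩ := hN W hW
  exact ⟨X, hX, hXn, hXW.trans (le_inf_iff.1 hle).1, hXW.trans (le_inf_iff.1 hle).2⟩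

/-- Level-constant 3-cochains (the same predicate as `K.IsLC₃`). -/
def IsLC₃ (L : LevelSys G) {X : Type*} (f : G × G × G → X) : Prop :=
  ∃ U ∈ L.levels, ∀ g₁ g₂ g₃ s₁ s₂ s₃ : G, s₁ ∈ U → s₂ ∈ U → s₃ ∈ U →
    f (g₁ * s₁, g₂ * s₂, g₃ * s₃) = f (g₁, g₂, g₃)

lemma isLC₁_iff {L : LevelSys G} {X : Type*} (f : G → X) :
    L.IsLC₁ f ↔ ∃ U ∈ L.levels, IsRInv₁ U f := Iff.rfl

lemma isLC₂_iff {L : LevelSys G} {X : Type*} (f : G × G → X) :
    L.IsLC₂ f ↔ ∃ U ∈ L.levels, IsRInv₂ U f := Iff.rfl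

lemma isLC₃_iff {L : LevelSys G} {X : Type*} (f : G × G × G → X) :
    IsLC₃ L f ↔ ∃ U ∈ L.levels, IsRInv₃ U f := Iff.rfl

/-! ## Inflation of cocycles -/

section InfCocycles

variable (A : Rep.{0, 0, 0} k G) (U : Subgroup G) [U.Normal]

lemma inf₁_mem_cocycles₁ (c : cocycles₁ (A.quotientToInvariants U)) :
    inf₁ A U c ∈ cocycles₁ A := by
  show (d₁₂ A).hom (inf₁ A U c) = 0
  rw [d₁₂_inf₁, show (d₁₂ (A.quotientToInvariants U)).hom c = 0 from c.2, map_zero]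

lemma inf₂_mem_cocycles₂ (c : cocycles₂ (A.quotientToInvariants U)) :
    inf₂ A U c ∈ cocycles₂ A := by
  show (d₂₃ A).hom (inf₂ A U c) = 0
  rw [d₂₃_inf₂, show (d₂₃ (A.quotientToInvariants U)).hom c = 0 from c.2, map_zero]

lemma inf₃_mem_cocycles₃ (c : cocycles₃ (A.quotientToInvariants U)) :
    inf₃ A U c ∈ cocycles₃ A := by
  show d34 A (inf₃ A U c) = 0
  rw [d34_inf₃, show d34 (A.quotientToInvariants U) c = 0 from c.2, map_zero]

variable {A U}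

lemma mem_cocycles₁_of_inf₁ {c : G ⧸ U → A.quotientToInvariants U}
    (h : inf₁ A U c ∈ cocycles₁ A) : c ∈ cocycles₁ (A.quotientToInvariants U) := by
  apply inf₂_injective A U
  rw [← d₁₂_inf₁, map_zero]
  exact h

lemma mem_cocycles₂_of_inf₂ {c : (G ⧸ U) × (G ⧸ U) → A.quotientToInvariants U}
    (h : inf₂ A U c ∈ cocycles₂ A) : c ∈ cocycles₂ (A.quotientToInvariants U) := by
  apply inf₃_injective A U
  rw [← d₂₃_inf₂, map_zero]
  exact h

lemma mem_cocycles₃_of_inf₃ {c : (G ⧸ U) × (G ⧸ U) × (G ⧸ U) → A.quotientToInvariants U}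
    (h : inf₃ A U c ∈ cocycles₃ A) : c ∈ cocycles₃ (A.quotientToInvariants U) := by
  apply inf₄_injective A U
  show inf₄ A U (d34 (A.quotientToInvariants U) c) = inf₄ A U 0
  rw [← d34_inf₃, map_zero]
  exact h

end InfCocycles

/-! ## Compatibility of inflation with `KL.HLmap` -/

section Compat

variable {G' : Type} [Group G'] {A : Rep.{0, 0, 0} k G} {A' : Rep.{0, 0, 0} k G'}
  (f : G' →* G) {U : Subgroup G} [U.Normal] {U' : Subgroup G'} [U'.Normal]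
  (hf : U' ≤ U.comap f) (φ : Rep.res f A ⟶ A')

/-- The group homomorphism `G' ⧸ U' → G ⧸ U` underlying `KL.HLmap f hf φ`. -/
abbrev qmap : G' ⧸ U' →* G ⧸ U := QuotientGroup.map U' U f hf

lemma inf₁_comp (c : cocycles₁ (A.quotientToInvariants U)) :
    inf₁ A' U' ((mapCocycles₁ (qmap f hf) (invMap f hf φ)).hom c) =
      fun x => φ.hom (inf₁ A U c (f x)) := by
  funext x
  rfl

lemma inf₂_comp (c : cocycles₂ (A.quotientToInvariants U)) :
    inf₂ A' U' ((mapCocycles₂ (qmap f hf) (invMap f hf φ)).hom c) =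
      fun x => φ.hom (inf₂ A U c (f x.1, f x.2)) := by
  funext ⟨x, y⟩
  rfl

lemma inf₃_comp (c : cocycles₃ (A.quotientToInvariants U)) :
    inf₃ A' U' (mapCocycles₃ (qmap f hf) (invMap f hf φ) c) =
      fun x => φ.hom (inf₃ A U c (f x.1, f x.2.1, f x.2.2)) := by
  funext ⟨x, y, z⟩
  rfl

/-- `KL.HLmap` on explicit 1-cocycles. -/
lemma HLmap_H1π (c : cocycles₁ (A.quotientToInvariants U)) :
    (HLmap f hf φ 1).hom (H1π _ c) =
      H1π _ ((mapCocycles₁ (qmap f hf) (invMap f hf φ)).hom c) :=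
  H1π_comp_map_apply (qmap f hf) (invMap f hf φ) c

/-- `KL.HLmap` on explicit 2-cocycles. -/
lemma HLmap_H2π (c : cocycles₂ (A.quotientToInvariants U)) :
    (HLmap f hf φ 2).hom (H2π _ c) =
      H2π _ ((mapCocycles₂ (qmap f hf) (invMap f hf φ)).hom c) :=
  H2π_comp_map_apply (qmap f hf) (invMap f hf φ) c

/-- `KL.HLmap` on explicit 3-cocycles. -/
lemma HLmap_H3π (c : cocycles₃ (A.quotientToInvariants U)) :
    (HLmap f hf φ 3).hom (H3π _ c) = H3π _ (mapCocycles₃ (qmap f hf) (invMap f hf φ) c) :=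
  map_H3π (qmap f hf) (invMap f hf φ) c

end Compat

/-! ## Transition maps between levels, on explicit cocycles -/

section Lev

variable (A : Rep.{0, 0, 0} k G) {U' U : Subgroup G} [U'.Normal] [U.Normal] (h : U' ≤ U)

/-- The transition map on 1-cocycles. -/
def lev₁ : cocycles₁ (A.quotientToInvariants U) →ₗ[k] cocycles₁ (A.quotientToInvariants U') :=
  (mapCocycles₁ (qmap (MonoidHom.id G) (U := U) (U' := U') (by simpa using h))
    (invMap (MonoidHom.id G) (W := U) (W' := U') (by simpa using h) (𝟙 A))).hom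

/-- The transition map on 2-cocycles. -/
def lev₂ : cocycles₂ (A.quotientToInvariants U) →ₗ[k] cocycles₂ (A.quotientToInvariants U') :=
  (mapCocycles₂ (qmap (MonoidHom.id G) (U := U) (U' := U') (by simpa using h))
    (invMap (MonoidHom.id G) (W := U) (W' := U') (by simpa using h) (𝟙 A))).hom

/-- The transition map on 3-cocycles. -/
def lev₃ : cocycles₃ (A.quotientToInvariants U) →ₗ[k] cocycles₃ (A.quotientToInvariants U') :=
  mapCocycles₃ (qmap (MonoidHom.id G) (U := U) (U' := U') (by simpa using h))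
    (invMap (MonoidHom.id G) (W := U) (W' := U') (by simpa using h) (𝟙 A))

@[simp] lemma inf₁_lev₁ (c : cocycles₁ (A.quotientToInvariants U)) :
    inf₁ A U' (lev₁ A h c) = inf₁ A U c := by
  funext x
  rfl

@[simp] lemma inf₂_lev₂ (c : cocycles₂ (A.quotientToInvariants U)) :
    inf₂ A U' (lev₂ A h c) = inf₂ A U c := by
  funext ⟨x, y⟩
  rfl

@[simp] lemma inf₃_lev₃ (c : cocycles₃ (A.quotientToInvariants U)) :
    inf₃ A U' (lev₃ A h c) = inf₃ A U c := by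
  funext ⟨x, y, z⟩
  rfl

lemma infl_H1π (c : cocycles₁ (A.quotientToInvariants U)) :
    (infl A h 1).hom (H1π _ c) = H1π _ (lev₁ A h c) :=
  HLmap_H1π _ _ _ c

lemma infl_H2π (c : cocycles₂ (A.quotientToInvariants U)) :
    (infl A h 2).hom (H2π _ c) = H2π _ (lev₂ A h c) :=
  HLmap_H2π _ _ _ c

lemma infl_H3π (c : cocycles₃ (A.quotientToInvariants U)) :
    (infl A h 3).hom (H3π _ c) = H3π _ (lev₃ A h c) :=
  HLmap_H3π _ _ _ c

end Lev

/-! ## The elementwise dictionary -/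

section Dictionary

variable {L : LevelSys G} {A : Rep.{0, 0, 0} k G}

lemma isLC₁_inf₁ {U : Subgroup G} [U.Normal] (hU : U ∈ L.levels)
    (c : G ⧸ U → A.quotientToInvariants U) : L.IsLC₁ (inf₁ A U c) :=
  ⟨U, hU, isRInv₁_inf₁ A U c⟩

lemma isLC₂_inf₂ {U : Subgroup G} [U.Normal] (hU : U ∈ L.levels)
    (c : (G ⧸ U) × (G ⧸ U) → A.quotientToInvariants U) : L.IsLC₂ (inf₂ A U c) :=
  ⟨U, hU, isRInv₂_inf₂ A U c⟩

lemma isLC₃_inf₃ {U : Subgroup G} [U.Normal] (hU : U ∈ L.levels)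
    (c : (G ⧸ U) × (G ⧸ U) × (G ⧸ U) → A.quotientToInvariants U) : IsLC₃ L (inf₃ A U c) :=
  ⟨U, hU, isRInv₃_inf₃ A U c⟩

lemma inf₁_mem_Z1 {U : Subgroup G} [U.Normal] (hU : U ∈ L.levels)
    (c : cocycles₁ (A.quotientToInvariants U)) : inf₁ A U c ∈ L.Z1 A :=
  Submodule.mem_inf.2 ⟨inf₁_mem_cocycles₁ A U c, isLC₁_inf₁ hU c⟩

lemma inf₂_mem_Z2 {U : Subgroup G} [U.Normal] (hU : U ∈ L.levels)
    (c : cocycles₂ (A.quotientToInvariants U)) : inf₂ A U c ∈ L.Z2 A :=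
  Submodule.mem_inf.2 ⟨inf₂_mem_cocycles₂ A U c, isLC₂_inf₂ hU c⟩

/-- The inflation of a coboundary is the coboundary of a level-constant cochain. -/
lemma inf₂_mem_B2_of_mem {U : Subgroup G} [U.Normal] (hU : U ∈ L.levels)
    {c : (G ⧸ U) × (G ⧸ U) → A.quotientToInvariants U}
    (hc : c ∈ coboundaries₂ (A.quotientToInvariants U)) : inf₂ A U c ∈ L.B2 A := by
  obtain ⟨b', rfl⟩ := hc
  exact ⟨inf₁ A U b', isLC₁_inf₁ hU b', d₁₂_inf₁ A U b'⟩

lemma inf₂_mem_B2_of_H2π {U : Subgroup G} [U.Normal] (hU : U ∈ L.levels)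
    {c : cocycles₂ (A.quotientToInvariants U)} (hc : H2π _ c = 0) : inf₂ A U c ∈ L.B2 A :=
  inf₂_mem_B2_of_mem hU ((H2π_eq_zero_iff c).1 hc)

/-- The inflation of a coboundary is the coboundary of a level-constant cochain. -/
lemma inf₃_mem_B3_of_mem {U : Subgroup G} [U.Normal] (hU : U ∈ L.levels)
    {c : (G ⧸ U) × (G ⧸ U) × (G ⧸ U) → A.quotientToInvariants U}
    (hc : c ∈ coboundaries₃ (A.quotientToInvariants U)) :
    ∃ b ∈ L.C2 A, (d₂₃ A).hom b = inf₃ A U c := by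
  obtain ⟨b', rfl⟩ := hc
  exact ⟨inf₂ A U b', isLC₂_inf₂ hU b', d₂₃_inf₂ A U b'⟩

lemma inf₃_mem_B3_of_H3π {U : Subgroup G} [U.Normal] (hU : U ∈ L.levels)
    {c : cocycles₃ (A.quotientToInvariants U)} (hc : H3π _ c = 0) :
    ∃ b ∈ L.C2 A, (d₂₃ A).hom b = inf₃ A U c :=
  inf₃_mem_B3_of_mem hU ((H3π_eq_zero_iff c).1 hc)

variable (hN : L.NormalCofinal)
include hN

/-- A level-constant 1-cochain whose coboundary is right invariant under a level is inflated from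
a normal level. -/
theorem exists_inf₁_of_isLC₁ {f : G → A} (hf : L.IsLC₁ f) {W : Subgroup G} (hW : W ∈ L.levels)
    (hd : IsRInv₂ W ((d₁₂ A).hom f)) {U₀ : Subgroup G} (hU₀ : U₀ ∈ L.levels) :
    ∃ (U : Subgroup G) (_ : U.Normal) (_ : U ∈ L.levels) (_ : U ≤ U₀) (_ : U ≤ W)
      (c : G ⧸ U → A.quotientToInvariants U), inf₁ A U c = f := by
  obtain ⟨W', hW', hfW'⟩ := hf
  obtain ⟨U₁, hU₁, -, hU₁W', hU₁W⟩ := exists_normal_le hN hW' hW
  obtain ⟨U, hU, hUn, hUU₁, hUU₀⟩ := exists_normal_le hN hU₁ hU₀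
  haveI := hUn
  have hr : IsRInv₁ U f := IsRInv₁.mono (hUU₁.trans hU₁W') hfW'
  have hd' : IsRInv₂ U ((d₁₂ A).hom f) := hd.mono (hUU₁.trans hU₁W)
  obtain ⟨c, hc⟩ := exists_inf₁ hr (isInv_of_isRInv₁ hr hd')
  exact ⟨U, hUn, hU, hUU₀, hUU₁.trans hU₁W, c, hc⟩

/-- A level-constant 2-cochain whose coboundary is right invariant under a level is inflated from
a normal level. -/
theorem exists_inf₂_of_isLC₂ {f : G × G → A} (hf : L.IsLC₂ f) {W : Subgroup G}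
    (hW : W ∈ L.levels) (hd : IsRInv₃ W ((d₂₃ A).hom f)) {U₀ : Subgroup G}
    (hU₀ : U₀ ∈ L.levels) :
    ∃ (U : Subgroup G) (_ : U.Normal) (_ : U ∈ L.levels) (_ : U ≤ U₀) (_ : U ≤ W)
      (c : (G ⧸ U) × (G ⧸ U) → A.quotientToInvariants U), inf₂ A U c = f := by
  obtain ⟨W', hW', hfW'⟩ := hf
  obtain ⟨U₁, hU₁, -, hU₁W', hU₁W⟩ := exists_normal_le hN hW' hW
  obtain ⟨U, hU, hUn, hUU₁, hUU₀⟩ := exists_normal_le hN hU₁ hU₀
  haveI := hUn
  have hr : IsRInv₂ U f := IsRInv₂.mono (hUU₁.trans hU₁W') hfW'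
  have hd' : IsRInv₃ U ((d₂₃ A).hom f) := hd.mono (hUU₁.trans hU₁W)
  obtain ⟨c, hc⟩ := exists_inf₂ hr (isInv_of_isRInv₂ hr hd')
  exact ⟨U, hUn, hU, hUU₀, hUU₁.trans hU₁W, c, hc⟩

/-- A level-constant 1-cocycle is inflated from a cocycle of a normal level. -/
theorem exists_inf₁_of_mem_Z1 {f : G → A} (hf : f ∈ L.Z1 A) {U₀ : Subgroup G}
    (hU₀ : U₀ ∈ L.levels) :
    ∃ (U : Subgroup G) (_ : U.Normal) (_ : U ∈ L.levels) (_ : U ≤ U₀)
      (c : cocycles₁ (A.quotientToInvariants U)), inf₁ A U c = f := by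
  obtain ⟨hcoc, hlc⟩ := Submodule.mem_inf.1 hf
  have hd : IsRInv₂ U₀ ((d₁₂ A).hom f) := by
    rw [show (d₁₂ A).hom f = 0 from hcoc]
    exact isRInv₂_zero U₀
  obtain ⟨U, hUn, hU, hUU₀, -, c, hc⟩ := exists_inf₁_of_isLC₁ hN hlc hU₀ hd hU₀
  haveI := hUn
  exact ⟨U, hUn, hU, hUU₀, ⟨c, mem_cocycles₁_of_inf₁ (hc ▸ hcoc)⟩, hc⟩

/-- A level-constant 2-cocycle is inflated from a cocycle of a normal level. -/
theorem exists_inf₂_of_mem_Z2 {f : G × G → A} (hf : f ∈ L.Z2 A) {U₀ : Subgroup G}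
    (hU₀ : U₀ ∈ L.levels) :
    ∃ (U : Subgroup G) (_ : U.Normal) (_ : U ∈ L.levels) (_ : U ≤ U₀)
      (c : cocycles₂ (A.quotientToInvariants U)), inf₂ A U c = f := by
  obtain ⟨hcoc, hlc⟩ := Submodule.mem_inf.1 hf
  have hd : IsRInv₃ U₀ ((d₂₃ A).hom f) := by
    rw [show (d₂₃ A).hom f = 0 from hcoc]
    exact isRInv₃_zero U₀
  obtain ⟨U, hUn, hU, hUU₀, -, c, hc⟩ := exists_inf₂_of_isLC₂ hN hlc hU₀ hd hU₀
  haveI := hUn
  exact ⟨U, hUn, hU, hUU₀, ⟨c, mem_cocycles₂_of_inf₂ (hc ▸ hcoc)⟩, hc⟩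

/-- A level-constant 3-cocycle is inflated from a cocycle of a normal level. -/
theorem exists_inf₃_of_isLC₃ {f : G × G × G → A} (hf : IsLC₃ L f) (hcoc : d34 A f = 0)
    {U₀ : Subgroup G} (hU₀ : U₀ ∈ L.levels) :
    ∃ (U : Subgroup G) (_ : U.Normal) (_ : U ∈ L.levels) (_ : U ≤ U₀)
      (c : cocycles₃ (A.quotientToInvariants U)), inf₃ A U c = f := by
  obtain ⟨W', hW', hfW'⟩ := hf
  obtain ⟨U, hU, hUn, hUW', hUU₀⟩ := exists_normal_le hN hW' hU₀
  haveI := hUn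
  have hr : IsRInv₃ U f := IsRInv₃.mono hUW' hfW'
  have hd : IsRInv₄ U (d34 A f) := by
    rw [hcoc]
    exact isRInv₄_zero U
  obtain ⟨c, hc⟩ := exists_inf₃ hr (isInv_of_isRInv₃ hr hd)
  exact ⟨U, hUn, hU, hUU₀, ⟨c, mem_cocycles₃_of_inf₃ (hc ▸ hcoc)⟩, hc⟩

omit hN in
/-- Inflation `H¹(G ⧸ U, A^U) → H¹_L(A)` is injective (cochain form). -/
theorem inf₁_mem_B1_iff {U : Subgroup G} [U.Normal] (c : cocycles₁ (A.quotientToInvariants U)) :
    inf₁ A U c ∈ LevelSys.B1 A ↔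
      (c : G ⧸ U → A.quotientToInvariants U) ∈ coboundaries₁ (A.quotientToInvariants U) := by
  constructor
  · rintro ⟨a, ha⟩
    have hd : IsRInv₁ U ((d₀₁ A).hom a) := by
      rw [ha]
      exact isRInv₁_inf₁ A U c
    obtain ⟨a', rfl⟩ := exists_inf₀ (isInv_of_isRInv₀ hd)
    refine ⟨a', ?_⟩
    apply inf₁_injective A U
    rw [← d₀₁_inf₀]
    exact ha
  · rintro ⟨a', ha'⟩
    refine ⟨inf₀ A U a', ?_⟩
    rw [d₀₁_inf₀, ha']

omit hN in
/-- Inflation `H¹(G ⧸ U, A^U) → H¹_L(A)` is injective (class form). -/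
theorem inf₁_mem_B1_iff_H1π {U : Subgroup G} [U.Normal]
    (c : cocycles₁ (A.quotientToInvariants U)) :
    inf₁ A U c ∈ LevelSys.B1 A ↔ H1π (A.quotientToInvariants U) c = 0 := by
  rw [inf₁_mem_B1_iff, H1π_eq_zero_iff]

/-- An inflated 2-cocycle is the coboundary of a level-constant cochain iff it becomes a
coboundary at a smaller normal level. -/
theorem inf₂_mem_B2_iff {U : Subgroup G} [U.Normal] (hU : U ∈ L.levels)
    (c : cocycles₂ (A.quotientToInvariants U)) :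
    inf₂ A U c ∈ L.B2 A ↔
      ∃ (U' : Subgroup G) (_ : U'.Normal) (_ : U' ∈ L.levels) (h : U' ≤ U),
        (lev₂ A h c : (G ⧸ U') × (G ⧸ U') → A.quotientToInvariants U') ∈
          coboundaries₂ (A.quotientToInvariants U') := by
  constructor
  · rintro ⟨b, hb, hbc⟩
    have hd : IsRInv₃ U ((d₂₃ A).hom ((d₁₂ A).hom b)) := by
      have : (d₂₃ A).hom ((d₁₂ A).hom b) = 0 := congr($(d₁₂_comp_d₂₃ A) b)
      rw [this]
      exact isRInv₃_zero U
    have hd' : IsRInv₂ U ((d₁₂ A).hom b) := by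
      rw [hbc]
      exact isRInv₂_inf₂ A U c
    obtain ⟨U', hU'n, hU', hU'U, -, b', hb'⟩ := exists_inf₁_of_isLC₁ hN hb hU hd' hU
    haveI := hU'n
    refine ⟨U', hU'n, hU', hU'U, b', ?_⟩
    apply inf₂_injective A U'
    rw [← d₁₂_inf₁, hb', inf₂_lev₂]
    exact hbc
  · rintro ⟨U', hU'n, hU', hU'U, b', hb'⟩
    haveI := hU'n
    refine ⟨inf₁ A U' b', isLC₁_inf₁ hU' b', ?_⟩
    rw [d₁₂_inf₁, hb', inf₂_lev₂]

/-- Class form of `inf₂_mem_B2_iff`. -/
theorem inf₂_mem_B2_iff_infl {U : Subgroup G} [U.Normal] (hU : U ∈ L.levels)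
    (c : cocycles₂ (A.quotientToInvariants U)) :
    inf₂ A U c ∈ L.B2 A ↔
      ∃ (U' : Subgroup G) (_ : U'.Normal) (_ : U' ∈ L.levels) (h : U' ≤ U),
        (infl A h 2).hom (H2π _ c) = 0 := by
  rw [inf₂_mem_B2_iff hN hU]
  constructor
  · rintro ⟨U', hU'n, hU', h, hc⟩
    haveI := hU'n
    exact ⟨U', hU'n, hU', h, by rw [infl_H2π]; exact (H2π_eq_zero_iff _).2 hc⟩
  · rintro ⟨U', hU'n, hU', h, hc⟩
    haveI := hU'n
    exact ⟨U', hU'n, hU', h, by rw [infl_H2π] at hc; exact (H2π_eq_zero_iff _).1 hc⟩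

/-- An inflated 3-cocycle is the coboundary of a level-constant cochain iff it becomes a
coboundary at a smaller normal level. -/
theorem inf₃_mem_B3_iff {U : Subgroup G} [U.Normal] (hU : U ∈ L.levels)
    (c : cocycles₃ (A.quotientToInvariants U)) :
    (∃ b ∈ L.C2 A, (d₂₃ A).hom b = inf₃ A U c) ↔
      ∃ (U' : Subgroup G) (_ : U'.Normal) (_ : U' ∈ L.levels) (h : U' ≤ U),
        (lev₃ A h c : (G ⧸ U') × (G ⧸ U') × (G ⧸ U') → A.quotientToInvariants U') ∈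
          coboundaries₃ (A.quotientToInvariants U') := by
  constructor
  · rintro ⟨b, hb, hbc⟩
    have hd' : IsRInv₃ U ((d₂₃ A).hom b) := by
      rw [hbc]
      exact isRInv₃_inf₃ A U c
    obtain ⟨U', hU'n, hU', hU'U, -, b', hb'⟩ := exists_inf₂_of_isLC₂ hN hb hU hd' hU
    haveI := hU'n
    refine ⟨U', hU'n, hU', hU'U, b', ?_⟩
    apply inf₃_injective A U'
    rw [← d₂₃_inf₂, hb', inf₃_lev₃]
    exact hbc
  · rintro ⟨U', hU'n, hU', hU'U, b', hb'⟩
    haveI := hU'n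
    refine ⟨inf₂ A U' b', isLC₂_inf₂ hU' b', ?_⟩
    rw [d₂₃_inf₂, hb', inf₃_lev₃]

/-- Class form of `inf₃_mem_B3_iff`. -/
theorem inf₃_mem_B3_iff_infl {U : Subgroup G} [U.Normal] (hU : U ∈ L.levels)
    (c : cocycles₃ (A.quotientToInvariants U)) :
    (∃ b ∈ L.C2 A, (d₂₃ A).hom b = inf₃ A U c) ↔
      ∃ (U' : Subgroup G) (_ : U'.Normal) (_ : U' ∈ L.levels) (h : U' ≤ U),
        (infl A h 3).hom (H3π _ c) = 0 := by
  rw [inf₃_mem_B3_iff hN hU]
  constructor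
  · rintro ⟨U', hU'n, hU', h, hc⟩
    haveI := hU'n
    exact ⟨U', hU'n, hU', h, by rw [infl_H3π]; exact (H3π_eq_zero_iff _).2 hc⟩
  · rintro ⟨U', hU'n, hU', h, hc⟩
    haveI := hU'n
    exact ⟨U', hU'n, hU', h, by rw [infl_H3π] at hc; exact (H3π_eq_zero_iff _).1 hc⟩

end Dictionary

/-! ## Cochain-level predicates (layer K) versus finite-level predicates (layer KL) -/

section Predicates

/-- `H³_L(A) = 0` (cochain form; the same predicate as `K.H3Vanish`). -/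
def H3Vanish (L : LevelSys G) (A : Rep.{0, 0, 0} k G) : Prop :=
  ∀ f : G × G × G → A, IsLC₃ L f → d34 A f = 0 → ∃ b ∈ L.C2 A, (d₂₃ A).hom b = f

/-- `H³_L(A)[n] = 0` (cochain form; the same predicate as `K.H3TorsVanish`). -/
def H3TorsVanish (L : LevelSys G) (A : Rep.{0, 0, 0} k G) (n : ℕ) : Prop :=
  ∀ f : G × G × G → A, IsLC₃ L f → d34 A f = 0 →
    (∃ b ∈ L.C2 A, (d₂₃ A).hom b = n • f) → ∃ b ∈ L.C2 A, (d₂₃ A).hom b = f

/-- `H²_L(A)` is `n`-divisible (cochain form; the same predicate as `K.H2Divisible`). -/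
def H2Divisible (L : LevelSys G) (A : Rep.{0, 0, 0} k G) (n : ℕ) : Prop :=
  ∀ f ∈ L.Z2 A, ∃ f' ∈ L.Z2 A, f - n • f' ∈ L.B2 A

/-- `H¹_L(A) = 0` (cochain form). -/
def H1Vanish (L : LevelSys G) (A : Rep.{0, 0, 0} k G) : Prop :=
  ∀ f ∈ L.Z1 A, f ∈ LevelSys.B1 A

/-- `H²_L(A) = 0` (cochain form). -/
def H2Vanish (L : LevelSys G) (A : Rep.{0, 0, 0} k G) : Prop :=
  ∀ f ∈ L.Z2 A, f ∈ L.B2 A

variable {L : LevelSys G} (hN : L.NormalCofinal) (hF : L.FiniteIndex) (A : Rep.{0, 0, 0} k G)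

/-- A normal level of `L` as a level of `nLevels L hN hF`. -/
abbrev toLvl {U : Subgroup G} (hU : U ∈ L.levels) (hUn : U.Normal) : (nLevels L hN hF).Lvl :=
  ⟨U, hU, hUn⟩

/-- **`H³_L(A) = 0` iff `colim_U H³(G ⧸ U, A^U) = 0`.** -/
theorem h3Vanish_iff : H3Vanish L A ↔ EffAll (nLevels L hN hF) A 3 := by
  constructor
  · intro H V y
    induction y using H3_induction_on with
    | h c =>
    obtain ⟨b, hb, hbc⟩ := H (inf₃ A V.W c) (isLC₃_inf₃ (A := A) (U := V.W) V.mem.1 _) (inf₃_mem_cocycles₃ A V.W c)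
    obtain ⟨U', hU'n, hU', h, hc⟩ := (inf₃_mem_B3_iff_infl hN V.mem.1 c).1 ⟨b, hb, hbc⟩
    exact ⟨toLvl hN hF hU' hU'n, h, hc⟩
  · intro H f hf hcoc
    obtain ⟨U₀, hU₀⟩ := L.nonempty
    obtain ⟨U, hUn, hU, -, c, rfl⟩ := exists_inf₃_of_isLC₃ hN hf hcoc hU₀
    haveI := hUn
    obtain ⟨V', h, hc⟩ := H (toLvl hN hF hU hUn) (H3π _ c)
    exact (inf₃_mem_B3_iff_infl hN hU c).2 ⟨V'.W, V'.mem.2, V'.mem.1, h, hc⟩

/-- **`H³_L(A)[n] = 0` iff `colim_U H³(G ⧸ U, A^U)[n] = 0`.** -/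
theorem h3TorsVanish_iff (n : ℕ) : H3TorsVanish L A n ↔ EffTors (nLevels L hN hF) A n 3 := by
  constructor
  · intro H V y hy
    induction y using H3_induction_on with
    | h c =>
    have hnc : ((n • c : cocycles₃ (A.quotientToInvariants V.W)) :
        (G ⧸ V.W) × (G ⧸ V.W) × (G ⧸ V.W) → A.quotientToInvariants V.W) ∈
        coboundaries₃ (A.quotientToInvariants V.W) := by
      rw [← H3π_eq_zero_iff, map_nsmul]
      exact hy
    obtain ⟨b', hb'⟩ := hnc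
    have h1 : ∃ b ∈ L.C2 A, (d₂₃ A).hom b = n • inf₃ A V.W c := by
      refine ⟨inf₂ A V.W b', isLC₂_inf₂ V.mem.1 b', ?_⟩
      rw [d₂₃_inf₂, hb', ← map_nsmul]
      rfl
    obtain ⟨b, hb, hbc⟩ := H (inf₃ A V.W c) (isLC₃_inf₃ (A := A) (U := V.W) V.mem.1 _) (inf₃_mem_cocycles₃ A V.W c) h1
    obtain ⟨U', hU'n, hU', h, hc⟩ := (inf₃_mem_B3_iff_infl hN V.mem.1 c).1 ⟨b, hb, hbc⟩
    exact ⟨toLvl hN hF hU' hU'n, h, hc⟩
  · intro H f hf hcoc hnf
    obtain ⟨U₀, hU₀⟩ := L.nonempty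
    obtain ⟨U, hUn, hU, -, c, rfl⟩ := exists_inf₃_of_isLC₃ hN hf hcoc hU₀
    haveI := hUn
    have h1 : ∃ b ∈ L.C2 A, (d₂₃ A).hom b = inf₃ A U (n • c : cocycles₃ _) := by
      obtain ⟨b, hb, hbc⟩ := hnf
      refine ⟨b, hb, ?_⟩
      rw [hbc, ← map_nsmul]
      rfl
    obtain ⟨U₁, hU₁n, hU₁, h₁, hc₁⟩ := (inf₃_mem_B3_iff_infl hN hU (n • c)).1 h1
    haveI := hU₁n
    rw [map_nsmul, map_nsmul] at hc₁
    obtain ⟨V', h', hc'⟩ := H (toLvl hN hF hU₁ hU₁n) ((infl A h₁ 3).hom (H3π _ c)) hc₁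
    have h2 : (infl A (h'.trans h₁) 3).hom (H3π _ c) = 0 := by
      rw [← H543.infl_infl A h' h₁ 3]
      exact hc'
    exact (inf₃_mem_B3_iff_infl hN hU c).2 ⟨V'.W, V'.mem.2, V'.mem.1, h'.trans h₁, h2⟩

/-- **`H²_L(A)` is `n`-divisible iff `colim_U H²(G ⧸ U, A^U) ⊗ ℤ/n = 0`.** -/
theorem h2Divisible_iff (n : ℕ) : H2Divisible L A n ↔ EffDiv (nLevels L hN hF) A n 2 := by
  constructor
  · intro H V x
    induction x using H2_induction_on with
    | h c =>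
    obtain ⟨f', hf', hff'⟩ := H (inf₂ A V.W c) (inf₂_mem_Z2 V.mem.1 c)
    obtain ⟨U₁, hU₁n, hU₁, h₁, c', rfl⟩ := exists_inf₂_of_mem_Z2 hN hf' V.mem.1
    haveI := hU₁n
    have e : inf₂ A V.W c - n • inf₂ A U₁ c' = inf₂ A U₁ (lev₂ A h₁ c - n • c' : cocycles₂ _) := by
      rw [← inf₂_lev₂ A h₁ c, ← map_nsmul, ← map_sub]
      rfl
    rw [e] at hff'
    obtain ⟨U', hU'n, hU', h', hc⟩ := (inf₂_mem_B2_iff_infl hN hU₁ _).1 hff'
    haveI := hU'n
    refine ⟨toLvl hN hF hU' hU'n, h'.trans h₁, (infl A h' 2).hom (H2π _ c'), ?_⟩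
    rw [map_sub, map_sub, map_nsmul, map_nsmul, sub_eq_zero, ← infl_H2π A h₁ c,
      H543.infl_infl A h' h₁ 2] at hc
    exact hc
  · intro H f hf
    obtain ⟨U₀, hU₀⟩ := L.nonempty
    obtain ⟨U, hUn, hU, -, c, rfl⟩ := exists_inf₂_of_mem_Z2 hN hf hU₀
    haveI := hUn
    obtain ⟨V', h, w, hw⟩ := H (toLvl hN hF hU hUn) (H2π _ c)
    have h' : V'.W ≤ U := h
    induction w using H2_induction_on with
    | h c' =>
    refine ⟨inf₂ A V'.W c', inf₂_mem_Z2 V'.mem.1 c', ?_⟩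
    have e : inf₂ A U c - n • inf₂ A V'.W c' =
        inf₂ A V'.W (lev₂ A h' c - n • c' : cocycles₂ _) := by
      rw [← inf₂_lev₂ A h' c, ← map_nsmul, ← map_sub]
      rfl
    rw [e]
    refine inf₂_mem_B2_of_H2π V'.mem.1 ?_
    rw [map_sub, map_nsmul, ← infl_H2π, sub_eq_zero]
    exact hw

/-- **`H²_L(A) = 0` iff `colim_U H²(G ⧸ U, A^U) = 0`.** -/
theorem h2Vanish_iff : H2Vanish L A ↔ EffAll (nLevels L hN hF) A 2 := by
  constructor
  · intro H V y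
    induction y using H2_induction_on with
    | h c =>
    obtain ⟨U', hU'n, hU', h, hc⟩ :=
      (inf₂_mem_B2_iff_infl hN V.mem.1 c).1 (H _ (inf₂_mem_Z2 V.mem.1 c))
    exact ⟨toLvl hN hF hU' hU'n, h, hc⟩
  · intro H f hf
    obtain ⟨U₀, hU₀⟩ := L.nonempty
    obtain ⟨U, hUn, hU, -, c, rfl⟩ := exists_inf₂_of_mem_Z2 hN hf hU₀
    haveI := hUn
    obtain ⟨V', h, hc⟩ := H (toLvl hN hF hU hUn) (H2π _ c)
    exact (inf₂_mem_B2_iff_infl hN hU c).2 ⟨V'.W, V'.mem.2, V'.mem.1, h, hc⟩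

/-- **`H¹_L(A) = 0` iff `H¹(G ⧸ U, A^U) = 0` for all normal levels `U`** (inflation is injective
in degree `1`). -/
theorem h1Vanish_iff :
    H1Vanish L A ↔ ∀ (V : (nLevels L hN hF).Lvl) (y : HL A V.W 1), y = 0 := by
  constructor
  · intro H V y
    induction y using H1_induction_on with
    | h c => exact (inf₁_mem_B1_iff_H1π c).1 (H _ (inf₁_mem_Z1 V.mem.1 c))
  · intro H f hf
    obtain ⟨U₀, hU₀⟩ := L.nonempty
    obtain ⟨U, hUn, hU, -, c, rfl⟩ := exists_inf₁_of_mem_Z1 hN hf hU₀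
    haveI := hUn
    exact (inf₁_mem_B1_iff_H1π c).2 (H (toLvl hN hF hU hUn) (H1π _ c))

end Predicates

end Fermat.Agent.S55.ColH543

end
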