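import Fermat.Agent.S55.ColH543.Cochain
import Fermat.Agent.S55.Smooth.HomElem

/-!
# S55 / colimit dictionary (helper543), part 2: `H³` in explicit low-degree form

Mathlib's low-degree API (`cocycles₂`, `H2π`, …) stops in degree `2`.  We add degree `3`:

* `d_three_apply` : Mathlib's differential `C³ → C⁴` is `d34` (explicit formula on `G⁴`);
* `cocycles₃ A`, `coboundaries₃ A` (defined in `Cochain.lean`) and
  `H3π A : cocycles₃ A →ₗ[k] groupCohomology A 3`, surjective, with kernel `coboundaries₃ A`;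
* `map_H3π` : functoriality of `groupCohomology.map` on explicit 3-cocycles;
* `subsingleton_H3_iff`, `isZero_H3_iff` : `H³(G, A) = 0` iff every explicit 3-cocycle is a
  coboundary.
-/

set_option autoImplicit false

noncomputable section

open groupCohomology CategoryTheory Fermat.Agent.S55.Smooth

namespace Fermat.Agent.S55.ColH543

variable {k : Type} [CommRing k] {G : Type} [Group G] (A : Rep.{0, 0, 0} k G)

lemma cochainsIso₃_hom_apply (f : (Fin 3 → G) → A) (x : G × G × G) :
    (cochainsIso₃ A).hom f x = f ![x.1, x.2.1, x.2.2] := rfl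

lemma cochainsIso₃_inv_apply (c : G × G × G → A) (g : Fin 3 → G) :
    (cochainsIso₃ A).inv c g = c (g 0, g 1, g 2) := rfl

lemma cochainsIso₃_hom_inv_apply (c : G × G × G → A) :
    (cochainsIso₃ A).hom ((cochainsIso₃ A).inv c) = c := by
  funext ⟨g₁, g₂, g₃⟩
  rfl

lemma cochainsIso₃_inv_hom_apply (f : (Fin 3 → G) → A) :
    (cochainsIso₃ A).inv ((cochainsIso₃ A).hom f) = f := by
  funext g
  show f ![g 0, g 1, g 2] = f g
  congr 1
  funext i
  fin_cases i <;> rfl

/-- Mathlib's differential `C³ → C⁴` in explicit form. -/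
theorem d_three_apply (f : (Fin 3 → G) → A) (x : G × G × G × G) :
    (inhomogeneousCochains.d A 3).hom f ![x.1, x.2.1, x.2.2.1, x.2.2.2] =
      d34 A ((cochainsIso₃ A).hom f) x := by
  obtain ⟨g₁, g₂, g₃, g₄⟩ := x
  rw [inhomogeneousCochains.d_hom_apply, Fin.sum_univ_four]
  have h3 : ((3 : Fin 4) : ℕ) = 3 := rfl
  have e : ((-1 : k) ^ (3 + 1)) = 1 := by norm_num
  simp only [d34_apply, h3, e]
  simp only [sub_eq_add_neg, add_assoc, Fin.val_zero, zero_add, pow_one, neg_smul,
    one_smul, Fin.val_one, Fin.val_two, pow_succ' (-1 : k) 2, neg_sq,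
    Nat.one_add, one_pow, mul_one]
  rcongr i <;> fin_cases i <;> rfl

theorem d_three_eq_zero_iff (f : (Fin 3 → G) → A) :
    (inhomogeneousCochains.d A 3).hom f = 0 ↔ d34 A ((cochainsIso₃ A).hom f) = 0 := by
  constructor
  · intro h
    funext x
    rw [← d_three_apply, h]
    rfl
  · intro h
    funext g
    have hg : g = ![g 0, g 1, g 2, g 3] := by
      funext i
      fin_cases i <;> rfl
    rw [hg, d_three_apply A f (g 0, g 1, g 2, g 3), h]
    rfl

/-- Explicit 3-cocycles as elementwise cocycles of the complex of inhomogeneous cochains. -/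
def cocycles₃ToZ : cocycles₃ A →ₗ[k] Zₗ (inhomogeneousCochains A) 3 :=
  LinearMap.codRestrict _ ((cochainsIso₃ A).inv.hom ∘ₗ (cocycles₃ A).subtype) fun c => by
    rw [LinearMap.mem_ker, inhomogeneousCochains.d_def]
    rw [d_three_eq_zero_iff]
    simp only [LinearMap.comp_apply, Submodule.subtype_apply]
    rw [cochainsIso₃_hom_inv_apply]
    exact c.2

@[simp] lemma cocycles₃ToZ_coe (c : cocycles₃ A) :
    ((cocycles₃ToZ A c : Zₗ (inhomogeneousCochains A) 3) : (Fin 3 → G) → A) =
      (cochainsIso₃ A).inv (c : G × G × G → A) := rfl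

lemma cocycles₃ToZ_surjective : Function.Surjective (cocycles₃ToZ A) := by
  intro z
  have hz : (inhomogeneousCochains.d A 3).hom z.1 = 0 := by
    have := z.2
    rw [LinearMap.mem_ker, inhomogeneousCochains.d_def] at this
    exact this
  refine ⟨⟨(cochainsIso₃ A).hom z.1, (d_three_eq_zero_iff A z.1).1 hz⟩, ?_⟩
  apply Subtype.ext
  exact cochainsIso₃_inv_hom_apply A z.1

/-- The class of an explicit 3-cocycle. -/
def H3π : cocycles₃ A →ₗ[k] groupCohomology A 3 :=
  clsₗ (inhomogeneousCochains A) 3 ∘ₗ cocycles₃ToZ A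

lemma H3π_surjective : Function.Surjective (H3π A) :=
  (clsₗ_surjective (inhomogeneousCochains A) 3).comp (cocycles₃ToZ_surjective A)

variable {A}

lemma H3π_eq_zero_iff (c : cocycles₃ A) :
    H3π A c = 0 ↔ (c : G × G × G → A) ∈ coboundaries₃ A := by
  show clsₗ (inhomogeneousCochains A) 3 (cocycles₃ToZ A c) = 0 ↔ _
  rw [clsₗ_eq_zero_iff]
  constructor
  · rintro ⟨y, hy⟩
    refine ⟨(cochainsIso₂ A).hom y, ?_⟩
    have h1 := congr($(comp_d₂₃_eq A) y)
    simp only [ModuleCat.hom_comp, LinearMap.comp_apply] at h1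
    rw [h1, hy, cocycles₃ToZ_coe, cochainsIso₃_hom_inv_apply]
  · rintro ⟨b, hb⟩
    refine ⟨(cochainsIso₂ A).inv b, ?_⟩
    have h1 := congr($(eq_d₂₃_comp_inv A) b)
    simp only [ModuleCat.hom_comp, LinearMap.comp_apply] at h1
    rw [h1, hb]
    rfl

lemma H3π_eq_iff (c c' : cocycles₃ A) :
    H3π A c = H3π A c' ↔ (c : G × G × G → A) - c' ∈ coboundaries₃ A := by
  rw [← sub_eq_zero, ← map_sub, H3π_eq_zero_iff]
  rfl

@[elab_as_elim]
theorem H3_induction_on {C : groupCohomology A 3 → Prop} (x : groupCohomology A 3)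
    (h : ∀ c : cocycles₃ A, C (H3π A c)) : C x := by
  obtain ⟨c, rfl⟩ := H3π_surjective A x
  exact h c

/-- `H³(G, A) = 0` iff every explicit 3-cocycle is a coboundary. -/
theorem subsingleton_H3_iff :
    Subsingleton (groupCohomology A 3) ↔ cocycles₃ A ≤ coboundaries₃ A := by
  constructor
  · intro h c hc
    exact (H3π_eq_zero_iff ⟨c, hc⟩).1 (Subsingleton.elim _ _)
  · intro h
    refine ⟨fun x y => ?_⟩
    induction x using H3_induction_on with
    | h c =>
    induction y using H3_induction_on with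
    | h c' =>
    rw [(H3π_eq_zero_iff c).2 (h c.2), (H3π_eq_zero_iff c').2 (h c'.2)]

theorem isZero_H3_iff :
    Limits.IsZero (groupCohomology A 3) ↔ cocycles₃ A ≤ coboundaries₃ A := by
  rw [ModuleCat.isZero_iff_subsingleton, subsingleton_H3_iff]

/-! ## Functoriality -/

section Map

variable {H : Type} [Group H] {B : Rep.{0, 0, 0} k H} (f : H →* G) (φ : Rep.res f A ⟶ B)

/-- The map on explicit 3-cochains induced by `f : H → G` and `φ : res f A → B`. -/
def mapCochains₃ : (G × G × G → A) →ₗ[k] (H × H × H → B) where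
  toFun c x := φ.hom (c (f x.1, f x.2.1, f x.2.2))
  map_add' _ _ := by
    funext x
    simp
  map_smul' _ _ := by
    funext x
    simp

@[simp] lemma mapCochains₃_apply (c : G × G × G → A) (h₁ h₂ h₃ : H) :
    mapCochains₃ f φ c (h₁, h₂, h₃) = φ.hom (c (f h₁, f h₂, f h₃)) := rfl

lemma d34_mapCochains₃ (c : G × G × G → A) :
    d34 B (mapCochains₃ f φ c) = fun x => φ.hom (d34 A c (f x.1, f x.2.1, f x.2.2.1, f x.2.2.2)) := by
  funext ⟨h₁, h₂, h₃, h₄⟩
  simp only [d34_apply, mapCochains₃_apply, map_add, map_sub, map_mul]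
  have := Rep.hom_comm_apply φ h₁ (c (f h₂, f h₃, f h₄))
  rw [← this]
  rfl

/-- The map on explicit 3-cocycles. -/
def mapCocycles₃ : cocycles₃ A →ₗ[k] cocycles₃ B :=
  (mapCochains₃ f φ).restrict fun c hc => by
    rw [mem_cocycles₃_iff] at hc ⊢
    rw [d34_mapCochains₃, hc]
    funext x
    simp

@[simp] lemma mapCocycles₃_coe (c : cocycles₃ A) :
    ((mapCocycles₃ f φ c : cocycles₃ B) : H × H × H → B) = mapCochains₃ f φ c := rfl

/-- `groupCohomology.map` on explicit 3-cocycles. -/
theorem map_H3π (c : cocycles₃ A) :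
    (groupCohomology.map f φ 3).hom (H3π A c) = H3π B (mapCocycles₃ f φ c) := by
  show (HomologicalComplex.homologyMap (cochainsMap f φ) 3).hom
    (clsₗ (inhomogeneousCochains A) 3 (cocycles₃ToZ A c)) = _
  rw [homologyMap_clsₗ]
  show _ = clsₗ (inhomogeneousCochains B) 3 (cocycles₃ToZ B (mapCocycles₃ f φ c))
  congr 1

end Map

end Fermat.Agent.S55.ColH543

end
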