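import Fermat.Agent.S55.ColH543.Shapiro
import Fermat.Agent.S55.K.Defs

/-!
# S55 / colimit dictionary (helper543), part 5: the cochain-level predicates of layer K for
# `Ind_V A = K.indG V A` in terms of the finite levels of the open subgroup `V`

`L : PT.LevelSys G` with cofinal normal levels of finite index, `V ≤ G` a subgroup containing a
normal level, `A : Rep k G` arbitrary.  Then

* `h3Vanish_indG_iff`     : `K.H3Vanish L (Ind_V A) ↔ colim_U H³(V ⧸ U, A^U) = 0`,
* `h3TorsVanish_indG_iff` : `K.H3TorsVanish L (Ind_V A) n ↔ colim_U H³(V ⧸ U, A^U)[n] = 0`,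
* `h2Divisible_indG_iff`  : `K.H2Divisible L (Ind_V A) n ↔ colim_U H²(V ⧸ U, A^U) ⊗ ℤ/n = 0`,

the colimits over the normal levels `U` of `G` (intersected with `V`), in the finite-level form
`KL.EffAll / EffTors / EffDiv ((nLevels L hN hF).restrict V) (Rep.res V.subtype A)`:
all groups are Mathlib `groupCohomology` of the finite groups `V ⧸ (U ∩ V)` acting on `A^{U ∩ V}`.
-/

set_option autoImplicit false
set_option linter.style.haveILetI false

noncomputable section

open groupCohomology CategoryTheory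

namespace Fermat.Agent.S55.ColH543

open Fermat.Agent.S55.PT Fermat.Agent.S55.KL Fermat.Agent.S55.KC.H475

variable {k : Type} [CommRing k] {G : Type} [Group G]

/-- `K.indG V A` carries the diagonal action. -/
lemma isDiag_indρ (V : Subgroup G) (A : Rep.{0, 0, 0} k G) :
    IsDiag A V (K.indρ (MonoidHom.id G) V A) := fun g x a => by
  rw [K.indρ_single]
  rfl

/-- The cochain-level predicates of layer K are those of `Colimit.lean`. -/
lemma k_h3Vanish_iff (L : LevelSys G) (A : Rep.{0, 0, 0} k G) :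
    K.H3Vanish L A ↔ H3Vanish L A := Iff.rfl

lemma k_h3TorsVanish_iff (L : LevelSys G) (A : Rep.{0, 0, 0} k G) (n : ℕ) :
    K.H3TorsVanish L A n ↔ H3TorsVanish L A n := Iff.rfl

lemma k_h2Divisible_iff (L : LevelSys G) (A : Rep.{0, 0, 0} k G) (n : ℕ) :
    K.H2Divisible L A n ↔ H2Divisible L A n := Iff.rfl

lemma finite_quotient_of_level_le {L : LevelSys G} (hF : L.FiniteIndex) (V : Subgroup G)
    {V₀ : Subgroup G} (hV₀ : V₀ ∈ L.levels) (hV₀V : V₀ ≤ V) : Finite (G ⧸ V) := by
  haveI := hF V₀ hV₀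
  haveI : V.FiniteIndex := Subgroup.finiteIndex_of_le hV₀V
  exact Subgroup.finite_quotient_of_finiteIndex

variable {L : LevelSys G} (hN : L.NormalCofinal) (hF : L.FiniteIndex) (A : Rep.{0, 0, 0} k G)
  (V : Subgroup G) {V₀ : Subgroup G} (hV₀ : V₀ ∈ L.levels) (hV₀n : V₀.Normal) (hV₀V : V₀ ≤ V)

include hV₀ hV₀n hV₀V

/-- `H³_L(Ind_V A) = 0` iff `colim_U H³(V ⧸ U, A^U) = 0`. -/
theorem h3Vanish_indG_iff :
    K.H3Vanish L (K.indG V A) ↔
      EffAll ((nLevels L hN hF).restrict V) (Rep.res V.subtype A) 3 := by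
  haveI := finite_quotient_of_level_le hF V hV₀ hV₀V
  exact (h3Vanish_iff hN hF (K.indG V A)).trans
    (effAll_ind_iff (nLevels L hN hF) A V (K.indρ (MonoidHom.id G) V A) (isDiag_indρ V A)
      (toLvl hN hF hV₀ hV₀n) hV₀V 3)

/-- `H³_L(Ind_V A)[n] = 0` iff `colim_U H³(V ⧸ U, A^U)[n] = 0`. -/
theorem h3TorsVanish_indG_iff (n : ℕ) :
    K.H3TorsVanish L (K.indG V A) n ↔
      EffTors ((nLevels L hN hF).restrict V) (Rep.res V.subtype A) n 3 := by
  haveI := finite_quotient_of_level_le hF V hV₀ hV₀V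
  exact (h3TorsVanish_iff hN hF (K.indG V A) n).trans
    (effTors_ind_iff (nLevels L hN hF) A V (K.indρ (MonoidHom.id G) V A) (isDiag_indρ V A)
      (toLvl hN hF hV₀ hV₀n) hV₀V n 3)

/-- `H²_L(Ind_V A)` is `n`-divisible iff `colim_U H²(V ⧸ U, A^U) ⊗ ℤ/n = 0`. -/
theorem h2Divisible_indG_iff (n : ℕ) :
    K.H2Divisible L (K.indG V A) n ↔
      EffDiv ((nLevels L hN hF).restrict V) (Rep.res V.subtype A) n 2 := by
  haveI := finite_quotient_of_level_le hF V hV₀ hV₀V
  exact (h2Divisible_iff hN hF (K.indG V A) n).trans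
    (effDiv_ind_iff (nLevels L hN hF) A V (K.indρ (MonoidHom.id G) V A) (isDiag_indρ V A)
      (toLvl hN hF hV₀ hV₀n) hV₀V n 2)

end Fermat.Agent.S55.ColH543

end
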