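import Fermat.Agent.S55.ColH543.Colimit
import Fermat.Agent.S55.KC.IndShapiroH475

/-!
# S55 / colimit dictionary (helper543), part 4: finite Shapiro for `Ind_V A` in `HL` form

`A : Rep k G`, `V ≤ G` of finite index, `ρ` the diagonal action on `Ind_V A = (G ⧸ V →₀ A)`
(`KC.H475.IsDiag`; e.g. `K.indG V A`).  For a normal subgroup `U ≤ V` of `G`:

* `shapHL : Hⁿ(G ⧸ U, (Ind_V A)^U) ⟶ Hⁿ(V ⧸ (U ∩ V), (A|_V)^{U ∩ V})` (restriction to `V` followed
  by evaluation at the trivial coset) is bijective (`shapHL_bijective`, from `KC.H475.shapiro_ind`)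
  and commutes with inflation (`shapHL_infl`);
* hence the finite-level systems of `(G, Ind_V A)` and of `(V, A|_V)` have the same colimit:
  `effAll_ind_iff`, `effTors_ind_iff`, `effDiv_ind_iff`.
-/

set_option autoImplicit false
set_option linter.style.haveILetI false

noncomputable section

open groupCohomology CategoryTheory

namespace Fermat.Agent.S55.ColH543

open Fermat.Agent.S55.PT Fermat.Agent.S55.KL Fermat.Agent.S55.KC.H475

variable {k : Type} [CommRing k] {G : Type} [Group G]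

section Transport

variable (A : Rep.{0, 0, 0} k G) (V U : Subgroup G) [U.Normal]

/-- The isomorphism `V ⧸ (U ∩ V) → image of V in G ⧸ U`, as a homomorphism. -/
def toImage : ↥V ⧸ U.subgroupOf V →* ↥(V.map (QuotientGroup.mk' U)) :=
  (H543.quotIncl V U).codRestrict (V.map (QuotientGroup.mk' U)) fun x => by
    induction x using QuotientGroup.induction_on with
    | H v => exact ⟨(v : G), v.2, rfl⟩

@[simp] lemma toImage_coe (x : ↥V ⧸ U.subgroupOf V) :
    ((toImage V U x : ↥(V.map (QuotientGroup.mk' U))) : G ⧸ U) = H543.quotIncl V U x := rfl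

lemma toImage_bijective : Function.Bijective (toImage V U) := by
  constructor
  · intro x y h
    exact H543.quotIncl_injective V U (congrArg Subtype.val h)
  · rintro ⟨_, g, hg, rfl⟩
    exact ⟨((⟨g, hg⟩ : V) : ↥V ⧸ U.subgroupOf V), rfl⟩

/-- The isomorphism `image of V in G ⧸ U ≃ V ⧸ (U ∩ V)`. -/
def imageEquiv : ↥(V.map (QuotientGroup.mk' U)) ≃* ↥V ⧸ U.subgroupOf V :=
  (MulEquiv.ofBijective (toImage V U) (toImage_bijective V U)).symm

lemma imageEquiv_toImage (x : ↥V ⧸ U.subgroupOf V) : imageEquiv V U (toImage V U x) = x :=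
  (MulEquiv.ofBijective (toImage V U) (toImage_bijective V U)).symm_apply_apply x

lemma imageEquiv_symm_apply (x : ↥V ⧸ U.subgroupOf V) :
    (imageEquiv V U).symm x = toImage V U x := rfl

/-- `A^U ≃ (A|_V)^{U ∩ V}` for `U ≤ V`. -/
def invEquiv (hUV : U ≤ V) :
    ↥(Representation.invariants (A.ρ.comp U.subtype)) ≃ₗ[k]
      ↥(Representation.invariants ((Rep.res V.subtype A).ρ.comp (U.subgroupOf V).subtype)) where
  toFun a := ⟨a.1, fun w => a.2 ⟨(w.1 : G), Subgroup.mem_subgroupOf.1 w.2⟩⟩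
  invFun b := ⟨b.1, fun w => b.2 ⟨⟨w.1, hUV w.2⟩, Subgroup.mem_subgroupOf.2 w.2⟩⟩
  left_inv _ := rfl
  right_inv _ := rfl
  map_add' _ _ := rfl
  map_smul' _ _ := rfl

/-- The transport isomorphism `Hⁿ(image of V, A^U) ≅ Hⁿ(V ⧸ (U ∩ V), (A|_V)^{U ∩ V})`. -/
def transportIso (hUV : U ≤ V) (n : ℕ) :
    groupCohomology (Rep.res (V.map (QuotientGroup.mk' U)).subtype (A.quotientToInvariants U)) n ≅
      HL (Rep.res V.subtype A) (U.subgroupOf V) n :=
  groupCohomology.mapIso (imageEquiv V U) (invEquiv A V U hUV) (fun g => by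
    obtain ⟨x, rfl⟩ := (toImage_bijective V U).2 g
    rw [imageEquiv_toImage]
    induction x using QuotientGroup.induction_on with
    | H v =>
      ext a
      rfl) n

lemma transportIso_hom_bijective (hUV : U ≤ V) (n : ℕ) :
    Function.Bijective (transportIso A V U hUV n).hom.hom :=
  ConcreteCategory.bijective_of_isIso (transportIso A V U hUV n).hom

end Transport

/-! ## The Shapiro map in `HL` form -/

section Shapiro

variable (A : Rep.{0, 0, 0} k G) (V : Subgroup G) (ρ : IndRepr A V)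

/-- Evaluation at the trivial coset, `Ind_V A → A`, a morphism of representations of `V`. -/
def evOne (hρ : IsDiag A V ρ) : Rep.res V.subtype (Rep.of ρ) ⟶ Rep.res V.subtype A :=
  Rep.ofHom ⟨Finsupp.lapply ((1 : G) : G ⧸ V), fun v => by
    refine LinearMap.ext fun b => ?_
    show (ρ (v : G) b) ((1 : G) : G ⧸ V) = A.ρ (v : G) (b ((1 : G) : G ⧸ V))
    rw [hρ.apply]
    have h : (v : G)⁻¹ • ((1 : G) : G ⧸ V) = ((1 : G) : G ⧸ V) :=
      smul_one_coset_eq_of_mem (V.inv_mem v.2)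
    rw [h]⟩

@[simp] lemma evOne_hom_apply (hρ : IsDiag A V ρ) (b : (G ⧸ V) →₀ A.V) :
    (evOne A V ρ hρ).hom b = b ((1 : G) : G ⧸ V) := rfl

/-- **The Shapiro map** `Hⁿ(G ⧸ U, (Ind_V A)^U) → Hⁿ(V ⧸ (U ∩ V), (A|_V)^{U ∩ V})`. -/
def shapHL (hρ : IsDiag A V ρ) (U : Subgroup G) [U.Normal] (n : ℕ) :
    HL (Rep.of ρ) U n ⟶ HL (Rep.res V.subtype A) (U.subgroupOf V) n :=
  HLmap V.subtype (W := U) (W' := U.subgroupOf V) le_rfl (evOne A V ρ hρ) n

/-- The Shapiro map factors through helper475's Shapiro isomorphism. -/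
lemma shapHL_eq (hρ : IsDiag A V ρ) (U : Subgroup G) [U.Normal] (hUV : U ≤ V) (n : ℕ) :
    shapHL A V ρ hρ U n =
      groupCohomology.map (V.map (QuotientGroup.mk' U)).subtype (shapPi hρ U hUV) n ≫
        (transportIso A V U hUV n).hom := by
  unfold shapHL HLmap transportIso
  rw [groupCohomology.mapIso_hom, ← groupCohomology.map_comp]
  refine groupCohomology.map_congr ?_ ?_ n
  · ext x
    rfl
  · ext b
    rfl

/-- **Finite Shapiro in `HL` form.** -/
theorem shapHL_bijective [Finite (G ⧸ V)] (hρ : IsDiag A V ρ) (U : Subgroup G) [U.Normal]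
    (hUV : U ≤ V) (n : ℕ) :
    Function.Bijective (shapHL A V ρ hρ U n).hom := by
  rw [shapHL_eq A V ρ hρ U hUV n]
  exact (transportIso_hom_bijective A V U hUV n).comp (shapiro_ind hρ U hUV n)

/-- The Shapiro map commutes with inflation. -/
lemma shapHL_infl (hρ : IsDiag A V ρ) {U' U : Subgroup G} [U'.Normal] [U.Normal] (h : U' ≤ U)
    (n : ℕ)
    (y : HL (Rep.of ρ) U n) :
    (shapHL A V ρ hρ U' n).hom ((infl (Rep.of ρ) h n).hom y) =
      (infl (Rep.res V.subtype A) (W' := U'.subgroupOf V) (W := U.subgroupOf V)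
        (fun _ hx => h hx) n).hom ((shapHL A V ρ hρ U n).hom y) := by
  have e : infl (Rep.of ρ) h n ≫ shapHL A V ρ hρ U' n =
      shapHL A V ρ hρ U n ≫ infl (Rep.res V.subtype A) (W' := U'.subgroupOf V)
        (W := U.subgroupOf V) (fun _ hx => h hx) n := by
    have e1 := H543.HLmap_comp (B := Rep.of ρ) (B' := Rep.of ρ) (B'' := Rep.res V.subtype A)
      (MonoidHom.id G) V.subtype (W := U) (W' := U') (W'' := U'.subgroupOf V)
      (by simpa using h) le_rfl (𝟙 (Rep.of ρ)) (evOne A V ρ hρ) n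
    have e2 := H543.HLmap_comp (B := Rep.of ρ) (B' := Rep.res V.subtype A)
      (B'' := Rep.res V.subtype A)
      V.subtype (MonoidHom.id ↥V) (W := U) (W' := U.subgroupOf V) (W'' := U'.subgroupOf V)
      le_rfl (fun _ hx => h hx) (evOne A V ρ hρ) (𝟙 (Rep.res V.subtype A)) n
    exact e1.trans ((H543.HLmap_congr _ _ _ _ rfl (fun b => rfl) n).trans e2.symm)
  exact congrArg (fun f => f.hom y) e

end Shapiro

/-! ## The colimits over the levels of `G` and of `V` agree -/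

section Eff

variable (N : NLevels G) (A : Rep.{0, 0, 0} k G) (V : Subgroup G) (ρ : IndRepr A V)

/-- A level of `N` below a level of `N` and below a level `W.subgroupOf V` of `N.restrict V`. -/
lemma exists_lvl_le (V₀ U₁ : N.Lvl) (X : (N.restrict V).Lvl) :
    ∃ U : N.Lvl, U.W ≤ V₀.W ∧ U.W ≤ U₁.W ∧ U.W.subgroupOf V ≤ X.W := by
  obtain ⟨W, hW, hXW⟩ := X.mem
  obtain ⟨U₂, h1, h2⟩ := N.exists_le V₀ U₁
  obtain ⟨U, h3, h4⟩ := N.exists_le U₂ ⟨W, hW⟩
  refine ⟨U, h3.trans h1, h3.trans h2, ?_⟩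
  rw [hXW]
  exact fun _ hx => h4 hx

variable [Finite (G ⧸ V)] (hρ : IsDiag A V ρ) (V₀ : N.Lvl) (hV₀ : V₀.W ≤ V)
include hρ hV₀

/-- **`colim_U Hⁿ(G ⧸ U, (Ind_V A)^U) = 0` iff `colim_U Hⁿ(V ⧸ U, A^U) = 0`.** -/
theorem effAll_ind_iff (n : ℕ) :
    EffAll N (Rep.of ρ) n ↔ EffAll (N.restrict V) (Rep.res V.subtype A) n := by
  constructor
  · intro H X y
    obtain ⟨U, hUV₀, -, hUX⟩ := exists_lvl_le N V V₀ V₀ X
    have hUV : U.W ≤ V := hUV₀.trans hV₀
    obtain ⟨x, hx⟩ := (shapHL_bijective A V ρ hρ U.W hUV n).2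
      ((infl (Rep.res V.subtype A) hUX n).hom y)
    obtain ⟨U', h', hx'⟩ := H U x
    have hsub : U'.W.subgroupOf V ≤ U.W.subgroupOf V := fun _ hz => h' hz
    refine ⟨U'.restrict V, hsub.trans hUX, ?_⟩
    have e1 := shapHL_infl A V ρ hρ h' n x
    rw [hx', map_zero, hx] at e1
    exact (H543.infl_infl (Rep.res V.subtype A) hsub hUX n y).symm.trans e1.symm
  · intro H U₁ x
    obtain ⟨U, hUV₀, hUU₁⟩ := N.exists_le V₀ U₁
    have hUV : U.W ≤ V := hUV₀.trans hV₀
    obtain ⟨X', hX', hy⟩ := H (U.restrict V)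
      ((shapHL A V ρ hρ U.W n).hom ((infl (Rep.of ρ) hUU₁ n).hom x))
    obtain ⟨U', -, hU'U, hU'X⟩ := exists_lvl_le N V V₀ U X'
    refine ⟨U', hU'U.trans hUU₁, ?_⟩
    rw [← H543.infl_infl (Rep.of ρ) hU'U hUU₁ n x]
    apply (shapHL_bijective A V ρ hρ U'.W (hU'U.trans hUV) n).1
    rw [map_zero, shapHL_infl A V ρ hρ hU'U n]
    have e1 := H543.infl_infl (Rep.res V.subtype A) hU'X hX' n
      ((shapHL A V ρ hρ U.W n).hom ((infl (Rep.of ρ) hUU₁ n).hom x))
    rw [hy, map_zero] at e1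
    exact e1.symm

/-- **`colim_U Hⁿ(G ⧸ U, (Ind_V A)^U)[p] = 0` iff `colim_U Hⁿ(V ⧸ U, A^U)[p] = 0`.** -/
theorem effTors_ind_iff (p n : ℕ) :
    EffTors N (Rep.of ρ) p n ↔ EffTors (N.restrict V) (Rep.res V.subtype A) p n := by
  constructor
  · intro H X y hpy
    obtain ⟨U, hUV₀, -, hUX⟩ := exists_lvl_le N V V₀ V₀ X
    have hUV : U.W ≤ V := hUV₀.trans hV₀
    obtain ⟨x, hx⟩ := (shapHL_bijective A V ρ hρ U.W hUV n).2
      ((infl (Rep.res V.subtype A) hUX n).hom y)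
    have hpx : p • x = 0 := by
      apply (shapHL_bijective A V ρ hρ U.W hUV n).1
      rw [map_nsmul, hx, ← map_nsmul, hpy, map_zero, map_zero]
    obtain ⟨U', h', hx'⟩ := H U x hpx
    have hsub : U'.W.subgroupOf V ≤ U.W.subgroupOf V := fun _ hz => h' hz
    refine ⟨U'.restrict V, hsub.trans hUX, ?_⟩
    have e1 := shapHL_infl A V ρ hρ h' n x
    rw [hx', map_zero, hx] at e1
    exact (H543.infl_infl (Rep.res V.subtype A) hsub hUX n y).symm.trans e1.symm
  · intro H U₁ x hpx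
    obtain ⟨U, hUV₀, hUU₁⟩ := N.exists_le V₀ U₁
    have hUV : U.W ≤ V := hUV₀.trans hV₀
    have hpy : p • (shapHL A V ρ hρ U.W n).hom ((infl (Rep.of ρ) hUU₁ n).hom x) = 0 := by
      rw [← map_nsmul, ← map_nsmul, hpx, map_zero, map_zero]
    obtain ⟨X', hX', hy⟩ := H (U.restrict V)
      ((shapHL A V ρ hρ U.W n).hom ((infl (Rep.of ρ) hUU₁ n).hom x)) hpy
    obtain ⟨U', -, hU'U, hU'X⟩ := exists_lvl_le N V V₀ U X'
    refine ⟨U', hU'U.trans hUU₁, ?_⟩
    rw [← H543.infl_infl (Rep.of ρ) hU'U hUU₁ n x]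
    apply (shapHL_bijective A V ρ hρ U'.W (hU'U.trans hUV) n).1
    rw [map_zero, shapHL_infl A V ρ hρ hU'U n]
    have e1 := H543.infl_infl (Rep.res V.subtype A) hU'X hX' n
      ((shapHL A V ρ hρ U.W n).hom ((infl (Rep.of ρ) hUU₁ n).hom x))
    rw [hy, map_zero] at e1
    exact e1.symm

/-- **`colim_U Hⁿ(G ⧸ U, (Ind_V A)^U) ⊗ ℤ/p = 0` iff `colim_U Hⁿ(V ⧸ U, A^U) ⊗ ℤ/p = 0`.** -/
theorem effDiv_ind_iff (p n : ℕ) :
    EffDiv N (Rep.of ρ) p n ↔ EffDiv (N.restrict V) (Rep.res V.subtype A) p n := by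
  constructor
  · intro H X y
    obtain ⟨U, hUV₀, -, hUX⟩ := exists_lvl_le N V V₀ V₀ X
    have hUV : U.W ≤ V := hUV₀.trans hV₀
    obtain ⟨x, hx⟩ := (shapHL_bijective A V ρ hρ U.W hUV n).2
      ((infl (Rep.res V.subtype A) hUX n).hom y)
    obtain ⟨U', h', w, hw⟩ := H U x
    have hsub : U'.W.subgroupOf V ≤ U.W.subgroupOf V := fun _ hz => h' hz
    refine ⟨U'.restrict V, hsub.trans hUX, (shapHL A V ρ hρ U'.W n).hom w, ?_⟩
    have e1 := shapHL_infl A V ρ hρ h' n x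
    rw [hw, map_nsmul, hx] at e1
    exact (H543.infl_infl (Rep.res V.subtype A) hsub hUX n y).symm.trans e1.symm
  · intro H U₁ x
    obtain ⟨U, hUV₀, hUU₁⟩ := N.exists_le V₀ U₁
    have hUV : U.W ≤ V := hUV₀.trans hV₀
    obtain ⟨X', hX', w', hw'⟩ := H (U.restrict V)
      ((shapHL A V ρ hρ U.W n).hom ((infl (Rep.of ρ) hUU₁ n).hom x))
    obtain ⟨U', -, hU'U, hU'X⟩ := exists_lvl_le N V V₀ U X'
    obtain ⟨w, hw⟩ := (shapHL_bijective A V ρ hρ U'.W (hU'U.trans hUV) n).2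
      ((infl (Rep.res V.subtype A) hU'X n).hom w')
    refine ⟨U', hU'U.trans hUU₁, w, ?_⟩
    rw [← H543.infl_infl (Rep.of ρ) hU'U hUU₁ n x]
    apply (shapHL_bijective A V ρ hρ U'.W (hU'U.trans hUV) n).1
    rw [map_nsmul, hw, shapHL_infl A V ρ hρ hU'U n]
    have e1 := H543.infl_infl (Rep.res V.subtype A) hU'X hX' n
      ((shapHL A V ρ hρ U.W n).hom ((infl (Rep.of ρ) hUU₁ n).hom x))
    rw [hw', map_nsmul] at e1
    exact e1.symm

end Eff

end Fermat.Agent.S55.ColH543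

end
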